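import Mathlib

/-!
# S55, D-layer foundation: elementwise description of the homology of a cochain complex of modules

For `K : CochainComplex (ModuleCat k) ℕ` we provide the linear map
`clsₗ K n : ker (d : Kⁿ → Kⁿ⁺¹) →ₗ[k] Hⁿ(K)`, show that it is surjective, and describe its kernel.
-/

set_option autoImplicit false

universe u

open CategoryTheory

namespace Fermat.Agent.S55.Smooth

variable {k : Type u} [Ring k] (K : CochainComplex (ModuleCat.{u} k) ℕ)

/-- The cocycles of degree `n`, as a submodule. -/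
abbrev Zₗ (n : ℕ) : Submodule k (K.X n) := LinearMap.ker (K.d n (n + 1)).hom

/-- The map from elementwise cocycles to categorical cycles. -/
noncomputable def toCyclesₗ (n : ℕ) : Zₗ K n →ₗ[k] K.cycles n :=
  (K.liftCycles (ModuleCat.ofHom (Zₗ K n).subtype) (n + 1) (by simp)
    (by ext x; exact x.2)).hom

@[simp]
theorem iCycles_toCyclesₗ (n : ℕ) (x : Zₗ K n) :
    (K.iCycles n).hom (toCyclesₗ K n x) = x.1 := by
  have := K.liftCycles_i (ModuleCat.ofHom (Zₗ K n).subtype) (n + 1) (by simp)
    (by ext x; exact x.2)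
  exact congr($(this) x)

theorem iCycles_injective (n : ℕ) : Function.Injective (K.iCycles n).hom :=
  (ModuleCat.mono_iff_injective _).1 inferInstance

theorem toCyclesₗ_injective (n : ℕ) : Function.Injective (toCyclesₗ K n) := by
  intro x y h
  apply Subtype.ext
  rw [← iCycles_toCyclesₗ, ← iCycles_toCyclesₗ, h]

theorem d_iCycles (n : ℕ) (z : K.cycles n) : (K.d n (n + 1)).hom ((K.iCycles n).hom z) = 0 :=
  congr($(K.iCycles_d n (n + 1)) z)

theorem toCyclesₗ_surjective (n : ℕ) : Function.Surjective (toCyclesₗ K n) := by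
  intro z
  refine ⟨⟨(K.iCycles n).hom z, d_iCycles K n z⟩, ?_⟩
  apply iCycles_injective
  simp

/-- The class of a cocycle. -/
noncomputable def clsₗ (n : ℕ) : Zₗ K n →ₗ[k] K.homology n :=
  (K.homologyπ n).hom ∘ₗ toCyclesₗ K n

theorem clsₗ_surjective (n : ℕ) : Function.Surjective (clsₗ K n) :=
  ((ModuleCat.epi_iff_surjective (K.homologyπ n)).1 inferInstance).comp (toCyclesₗ_surjective K n)

theorem clsₗ_eq_zero_iff (n : ℕ) (x : Zₗ K (n + 1)) :
    clsₗ K (n + 1) x = 0 ↔ ∃ y : K.X n, (K.d n (n + 1)).hom y = x.1 := by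
  have hex : (ShortComplex.mk (K.toCycles n (n + 1)) (K.homologyπ (n + 1))
      (K.toCycles_comp_homologyπ n (n + 1))).Exact :=
    ShortComplex.exact_of_g_is_cokernel _ (K.homologyIsCokernel n (n + 1) (by simp))
  rw [ShortComplex.moduleCat_exact_iff] at hex
  constructor
  · intro h
    obtain ⟨y, hy⟩ := hex (toCyclesₗ K (n + 1) x) h
    refine ⟨y, ?_⟩
    have := congr_arg (K.iCycles (n + 1)).hom hy
    rw [iCycles_toCyclesₗ] at this
    rw [← this]
    exact congr($(K.toCycles_i n (n + 1)) y).symm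
  · rintro ⟨y, hy⟩
    have : toCyclesₗ K (n + 1) x = (K.toCycles n (n + 1)).hom y := by
      apply iCycles_injective
      rw [iCycles_toCyclesₗ, ← hy]
      exact congr($(K.toCycles_i n (n + 1)) y).symm
    show (K.homologyπ (n + 1)).hom (toCyclesₗ K (n + 1) x) = 0
    rw [this]
    exact congr($(K.toCycles_comp_homologyπ n (n + 1)) y)

theorem clsₗ_zero_injective : Function.Injective (clsₗ K 0) := by
  have hex : (ShortComplex.mk (K.toCycles 0 0) (K.homologyπ 0)
      (K.toCycles_comp_homologyπ 0 0)).Exact :=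
    ShortComplex.exact_of_g_is_cokernel _ (K.homologyIsCokernel 0 0 (by simp))
  rw [ShortComplex.moduleCat_exact_iff] at hex
  rw [← LinearMap.ker_eq_bot, LinearMap.ker_eq_bot']
  intro x hx
  obtain ⟨y, hy⟩ := hex (toCyclesₗ K 0 x) hx
  apply toCyclesₗ_injective
  rw [map_zero, ← hy]
  apply iCycles_injective
  have h1 : (K.iCycles 0).hom ((K.toCycles 0 0).hom y) = (K.d 0 0).hom y :=
    congr($(K.toCycles_i 0 0) y)
  have h2 : K.d 0 0 = 0 := K.shape _ _ (by simp)
  rw [map_zero, h1, h2]
  rfl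

section Map

variable {K} {L : CochainComplex (ModuleCat.{u} k) ℕ} (φ : K ⟶ L)

/-- The map induced on elementwise cocycles by a chain map. -/
def mapZₗ (n : ℕ) : Zₗ K n →ₗ[k] Zₗ L n :=
  (φ.f n).hom.restrict fun x hx => by
    have := congr($(φ.comm n (n + 1)) x)
    simp only [ModuleCat.hom_comp, LinearMap.comp_apply] at this
    rw [LinearMap.mem_ker] at hx ⊢
    rw [this, hx, map_zero]

@[simp]
theorem mapZₗ_coe (n : ℕ) (x : Zₗ K n) : (mapZₗ φ n x : L.X n) = (φ.f n).hom x.1 := rfl

theorem homologyMap_clsₗ (n : ℕ) (x : Zₗ K n) :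
    (HomologicalComplex.homologyMap φ n).hom (clsₗ K n x) = clsₗ L n (mapZₗ φ n x) := by
  have h1 := congr($(HomologicalComplex.homologyπ_naturality φ n) (toCyclesₗ K n x))
  simp only [ModuleCat.hom_comp, LinearMap.comp_apply] at h1
  show (HomologicalComplex.homologyMap φ n).hom ((K.homologyπ n).hom (toCyclesₗ K n x)) = _
  rw [h1]
  show _ = (L.homologyπ n).hom (toCyclesₗ L n (mapZₗ φ n x))
  congr 1
  apply iCycles_injective
  rw [iCycles_toCyclesₗ, mapZₗ_coe]
  have h2 := congr($(HomologicalComplex.cyclesMap_i φ n) (toCyclesₗ K n x))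
  simp only [ModuleCat.hom_comp, LinearMap.comp_apply] at h2
  rw [h2, iCycles_toCyclesₗ]

end Map

end Fermat.Agent.S55.Smooth
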