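import Mathlib

/-!
# S55, D-layer foundation: smooth (level-constant) cochains

For a group `G` with a directed family `𝒰` of normal subgroups ("levels") and `A : Rep k G`,
an `n`-cochain `f : (Fin n → G) → A` is *smooth* if for some level `U ∈ 𝒰` it is constant on
right `U`-cosets in every variable and takes values in `A^U`
(i.e. it is inflated from a cochain of `G ⧸ U` with values in `A^U`).

Smooth cochains form a subcomplex of Mathlib's `groupCohomology.inhomogeneousCochains A`.
-/

set_option autoImplicit false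

universe u

open CategoryTheory groupCohomology

namespace Fermat.Agent.S55.Smooth

/-- A directed family of normal subgroups of `G` ("levels"). -/
structure Levels (G : Type u) [Group G] where
  /-- the set of levels -/
  carrier : Set (Subgroup G)
  nonempty' : carrier.Nonempty
  normal' : ∀ U ∈ carrier, U.Normal
  directed' : ∀ U ∈ carrier, ∀ V ∈ carrier, ∃ W ∈ carrier, W ≤ U ∧ W ≤ V
  finiteIndex' : ∀ U ∈ carrier, U.FiniteIndex

variable {k G : Type u} [CommRing k] [Group G]

/-- `f` is constant on right `U`-cosets in every variable and has values in `A^U`. -/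
def IsInfl (A : Rep.{u} k G) (U : Subgroup G) {n : ℕ} (f : (Fin n → G) → A) : Prop :=
  (∀ g s : Fin n → G, (∀ i, s i ∈ U) → f (g * s) = f g) ∧ ∀ g, ∀ u ∈ U, A.ρ u (f g) = f g

namespace IsInfl

variable {A : Rep.{u} k G} {U V : Subgroup G} {n : ℕ}

theorem mono (h : V ≤ U) {f : (Fin n → G) → A} (hf : IsInfl A U f) : IsInfl A V f :=
  ⟨fun g s hs => hf.1 g s fun i => h (hs i), fun g u hu => hf.2 g u (h hu)⟩

theorem zero : IsInfl A U (0 : (Fin n → G) → A) :=
  ⟨fun _ _ _ => rfl, fun _ _ _ => by simp⟩

theorem add {f f' : (Fin n → G) → A} (hf : IsInfl A U f) (hf' : IsInfl A U f') :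
    IsInfl A U (f + f') :=
  ⟨fun g s hs => by simp [hf.1 g s hs, hf'.1 g s hs],
    fun g u hu => by simp [hf.2 g u hu, hf'.2 g u hu]⟩

theorem smul (c : k) {f : (Fin n → G) → A} (hf : IsInfl A U f) : IsInfl A U (c • f) :=
  ⟨fun g s hs => by simp [hf.1 g s hs], fun g u hu => by simp [hf.2 g u hu]⟩

end IsInfl

/-- A representation is smooth if every vector is fixed by some level. -/
def IsSmoothRep (𝒰 : Levels G) (A : Rep.{u} k G) : Prop :=
  ∀ a : A, ∃ U ∈ 𝒰.carrier, ∀ u ∈ U, A.ρ u a = a

/-- In a smooth representation, finitely many vectors are fixed by a common level. -/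
theorem IsSmoothRep.exists_level_of_finite {𝒰 : Levels G} {A : Rep.{u} k G}
    (hA : IsSmoothRep 𝒰 A) (V : Subgroup G) (hV : V ∈ 𝒰.carrier) {T : Set A} (hT : T.Finite) :
    ∃ U ∈ 𝒰.carrier, U ≤ V ∧ ∀ a ∈ T, ∀ u ∈ U, A.ρ u a = a := by
  induction T, hT using Set.Finite.induction_on with
  | empty => exact ⟨V, hV, le_rfl, by simp⟩
  | insert _ _ ih =>
    rename_i a T' _ _
    obtain ⟨U, hU, hUV, h⟩ := ih
    obtain ⟨U', hU', h'⟩ := hA a
    obtain ⟨W, hW, hWU, hWU'⟩ := 𝒰.directed' U hU U' hU'
    refine ⟨W, hW, hWU.trans hUV, fun b hb u hu => ?_⟩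
    rcases hb with rfl | hb
    · exact h' u (hWU' hu)
    · exact h b hb u (hWU hu)

/-- A function constant on right cosets of a finite-index subgroup has finite range. -/
theorem finite_range_of_const {X : Type*} {U : Subgroup G} [U.FiniteIndex] {n : ℕ}
    (f : (Fin n → G) → X) (hf : ∀ g s : Fin n → G, (∀ i, s i ∈ U) → f (g * s) = f g) :
    (Set.range f).Finite := by
  have : Finite (G ⧸ U) := Subgroup.finite_quotient_of_finiteIndex
  have : Set.range f ⊆ Set.range fun q : Fin n → G ⧸ U => f fun i => (q i).out := by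
    rintro _ ⟨g, rfl⟩
    refine ⟨fun i => (g i : G ⧸ U), ?_⟩
    have h := hf g (fun i => (g i)⁻¹ * ((g i : G ⧸ U)).out) fun i => by
      rw [← QuotientGroup.eq]
      simp
    rw [← h]
    show f (fun i => ((g i : G ⧸ U)).out) = f (g * fun i => (g i)⁻¹ * ((g i : G ⧸ U)).out)
    congr 1
    funext i
    simp
  exact (Set.finite_range _).subset this

/-- Key combinatorial fact: contracting `g * s` differs from contracting `g` by a tuple in a
normal subgroup `U` containing all entries of `s`. -/
theorem contractNth_mul_mem {U : Subgroup G} [U.Normal] {n : ℕ} (j : Fin (n + 1))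
    (g s : Fin (n + 1) → G) (hs : ∀ i, s i ∈ U) :
    ∃ s' : Fin n → G, (∀ i, s' i ∈ U) ∧
      Fin.contractNth j (· * ·) (g * s) = Fin.contractNth j (· * ·) g * s' := by
  refine ⟨(Fin.contractNth j (· * ·) g)⁻¹ * Fin.contractNth j (· * ·) (g * s), fun i => ?_, ?_⟩
  · rcases lt_trichotomy (i : ℕ) j with h | h | h
    · simp only [Pi.mul_apply, Pi.inv_apply, Fin.contractNth_apply_of_lt _ _ _ _ h]
      simpa using hs _
    · simp only [Pi.mul_apply, Pi.inv_apply, Fin.contractNth_apply_of_eq _ _ _ _ h]
      have : (g i.castSucc * g i.succ)⁻¹ * (g i.castSucc * s i.castSucc * (g i.succ * s i.succ))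
          = ((g i.succ)⁻¹ * s i.castSucc * (g i.succ)⁻¹⁻¹) * s i.succ := by group
      rw [this]
      exact U.mul_mem (Subgroup.Normal.conj_mem inferInstance _ (hs _) _) (hs _)
    · simp only [Pi.mul_apply, Pi.inv_apply, Fin.contractNth_apply_of_gt _ _ _ _ h]
      simpa using hs _
  · simp

/-- The differential preserves `IsInfl` for a normal level. -/
theorem IsInfl.d {A : Rep.{u} k G} {U : Subgroup G} [U.Normal] {n : ℕ} {f : (Fin n → G) → A}
    (hf : IsInfl A U f) : IsInfl A U ((inhomogeneousCochains.d A n).hom f) := by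
  refine ⟨fun g s hs => ?_, fun g u hu => ?_⟩
  · simp only [inhomogeneousCochains.d_hom_apply]
    congr 1
    · have h1 : (fun i : Fin n => (g * s) i.succ) = (fun i => g i.succ) * fun i => s i.succ := rfl
      rw [h1, hf.1 _ _ (fun i => hs _), Pi.mul_apply, map_mul, Module.End.mul_apply,
        hf.2 _ _ (hs 0)]
    · refine Finset.sum_congr rfl fun j _ => ?_
      obtain ⟨s', hs', h⟩ := contractNth_mul_mem j g s hs
      rw [h, hf.1 _ _ hs']
  · simp only [inhomogeneousCochains.d_hom_apply, map_add, map_sum, map_smul]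
    congr 1
    · have : u * g 0 = g 0 * ((g 0)⁻¹ * u * (g 0)⁻¹⁻¹) := by group
      rw [← Module.End.mul_apply, ← map_mul, this, map_mul, Module.End.mul_apply,
        hf.2 _ _ (Subgroup.Normal.conj_mem inferInstance _ hu _)]
    · refine Finset.sum_congr rfl fun j _ => ?_
      rw [hf.2 _ _ hu]

end Fermat.Agent.S55.Smooth
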