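import Fermat.Agent.S55.Smooth.LES
import Fermat.Agent.S55.Smooth.HomElem

/-!
# S55, D-layer foundation: elementwise description of smooth cohomology

`smoothCocycles 𝒰 A n` = smooth `n`-cochains killed by `d`;
`smoothCls 𝒰 A n : smoothCocycles 𝒰 A n →ₗ[k] smoothCohomology 𝒰 A n` is surjective, and
`smoothCls x = 0 ↔ x = d y` for a smooth cochain `y`.
-/

set_option autoImplicit false

universe u

open CategoryTheory groupCohomology

namespace Fermat.Agent.S55.Smooth

variable {k G : Type u} [CommRing k] [Group G]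

section

variable (𝒰 : Levels G) (A : Rep.{u} k G)

/-- Smooth `n`-cocycles, as a submodule of all `n`-cochains. -/
def smoothCocycles (n : ℕ) : Submodule k ((Fin n → G) → A) :=
  smoothCochains 𝒰 A n ⊓ LinearMap.ker (inhomogeneousCochains.d A n).hom

variable {𝒰 A}

theorem mem_smoothCocycles_iff {n : ℕ} {f : (Fin n → G) → A} :
    f ∈ smoothCocycles 𝒰 A n ↔
      f ∈ smoothCochains 𝒰 A n ∧ (inhomogeneousCochains.d A n).hom f = 0 := Iff.rfl

variable (𝒰 A)

/-- Smooth cocycles as elementwise cocycles of the smooth complex. -/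
def smoothCocyclesToZ (n : ℕ) : smoothCocycles 𝒰 A n →ₗ[k] Zₗ (smoothComplex 𝒰 A) n where
  toFun x := ⟨⟨x.1, x.2.1⟩, by
    rw [LinearMap.mem_ker, smoothComplex_d]
    exact Subtype.ext x.2.2⟩
  map_add' _ _ := rfl
  map_smul' _ _ := rfl

theorem smoothCocyclesToZ_surjective (n : ℕ) : Function.Surjective (smoothCocyclesToZ 𝒰 A n) := by
  rintro ⟨⟨x, hx⟩, hd⟩
  rw [LinearMap.mem_ker, smoothComplex_d] at hd
  exact ⟨⟨x, hx, congr_arg Subtype.val hd⟩, rfl⟩

/-- The class of a smooth cocycle in smooth cohomology. -/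
noncomputable def smoothCls (n : ℕ) : smoothCocycles 𝒰 A n →ₗ[k] smoothCohomology 𝒰 A n :=
  clsₗ (smoothComplex 𝒰 A) n ∘ₗ smoothCocyclesToZ 𝒰 A n

theorem smoothCls_surjective (n : ℕ) : Function.Surjective (smoothCls 𝒰 A n) :=
  (clsₗ_surjective _ n).comp (smoothCocyclesToZ_surjective 𝒰 A n)

variable {𝒰 A}

theorem smoothCls_eq_zero_iff {n : ℕ} (x : smoothCocycles 𝒰 A (n + 1)) :
    smoothCls 𝒰 A (n + 1) x = 0 ↔
      ∃ y ∈ smoothCochains 𝒰 A n, (inhomogeneousCochains.d A n).hom y = x.1 := by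
  rw [smoothCls, LinearMap.comp_apply, clsₗ_eq_zero_iff]
  constructor
  · rintro ⟨y, hy⟩
    rw [smoothComplex_d] at hy
    exact ⟨y.1, y.2, congr_arg Subtype.val hy⟩
  · rintro ⟨y, hy, h⟩
    refine ⟨⟨y, hy⟩, ?_⟩
    rw [smoothComplex_d]
    exact Subtype.ext h

theorem smoothCls_zero_injective : Function.Injective (smoothCls 𝒰 A 0) := by
  refine (clsₗ_zero_injective _).comp ?_
  intro x y h
  exact Subtype.ext (congr_arg (fun z => (z.1 : (Fin 0 → G) → A)) h)

end

section Map

variable {H : Type u} [Group H] {𝒱 : Levels G} {𝒰 : Levels H} {A : Rep.{u} k H}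
  {B : Rep.{u} k G} (f : G →* H) (φ : Rep.res f A ⟶ B) (hf : LevelsCompat f 𝒱 𝒰)

/-- The map on smooth cocycles induced by a compatible group homomorphism and a morphism of
representations. -/
noncomputable def smoothCocyclesMap (n : ℕ) : smoothCocycles 𝒰 A n →ₗ[k] smoothCocycles 𝒱 B n :=
  ((cochainsMap f φ).f n).hom.restrict fun x hx => by
    refine ⟨cochainsMap_mem_smoothCochains f φ hf hx.1, ?_⟩
    have := congr($((cochainsMap f φ).comm n (n + 1)) x)
    simp only [CochainComplex.of_d, ModuleCat.hom_comp, LinearMap.comp_apply] at this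
    exact LinearMap.mem_ker.2 (by rw [this, LinearMap.mem_ker.1 hx.2, map_zero])

@[simp]
theorem smoothCocyclesMap_coe (n : ℕ) (x : smoothCocycles 𝒰 A n) :
    (smoothCocyclesMap f φ hf n x : (Fin n → G) → B) = ((cochainsMap f φ).f n).hom x.1 := rfl

theorem smoothCocyclesMap_apply (n : ℕ) (x : smoothCocycles 𝒰 A n) (g : Fin n → G) :
    (smoothCocyclesMap f φ hf n x : (Fin n → G) → B) g = φ.hom (x.1 (f ∘ g)) := rfl

theorem smoothMap_smoothCls (n : ℕ) (x : smoothCocycles 𝒰 A n) :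
    (smoothMap f φ hf n).hom (smoothCls 𝒰 A n x) = smoothCls 𝒱 B n (smoothCocyclesMap f φ hf n x) := by
  rw [smoothCls, LinearMap.comp_apply, smoothMap]
  exact homologyMap_clsₗ _ n _

end Map

end Fermat.Agent.S55.Smooth
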