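import Fermat.Agent.S55.Smooth.Cls

/-!
# S55, D-layer foundation: smooth cohomology in degrees 1 and 2 via functions on `G`, `G × G`

* `smooth₁ 𝒰 A ≤ (G → A)`, `smooth₂ 𝒰 A ≤ (G × G → A)`: smooth cochains in low-degree form;
* `smoothZ₁`, `smoothZ₂`: smooth cocycles; `smoothB₁`, `smoothB₂`: smooth coboundaries;
* `smoothH1Equiv : (smoothZ₁ ⧸ smoothB₁) ≃ₗ H¹_sm`, `smoothH2Equiv : (smoothZ₂ ⧸ smoothB₂) ≃ₗ H²_sm`.
-/

set_option autoImplicit false

universe u

open CategoryTheory groupCohomology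

namespace Fermat.Agent.S55.Smooth

noncomputable section

variable {k G : Type u} [CommRing k] [Group G]

section Predicates

variable (A : Rep.{u} k G) (U : Subgroup G)

/-- Low-degree form of `IsInfl` in degree 1. -/
def IsInfl₁ (f : G → A) : Prop :=
  (∀ g s, s ∈ U → f (g * s) = f g) ∧ ∀ g, ∀ u ∈ U, A.ρ u (f g) = f g

/-- Low-degree form of `IsInfl` in degree 2. -/
def IsInfl₂ (f : G × G → A) : Prop :=
  (∀ g g' s s', s ∈ U → s' ∈ U → f (g * s, g' * s') = f (g, g')) ∧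
    ∀ g, ∀ u ∈ U, A.ρ u (f g) = f g

variable {A U}

theorem isInfl_zero_iff (x : (Fin 0 → G) → A) :
    IsInfl A U x ↔ ∀ u ∈ U, A.ρ u (x default) = x default := by
  constructor
  · intro h u hu
    exact h.2 default u hu
  · intro h
    refine ⟨fun g s _ => ?_, fun g u hu => ?_⟩
    · rw [Subsingleton.elim (g * s) g]
    · rw [Subsingleton.elim g default]
      exact h u hu

theorem isInfl_one_iff (x : (Fin 1 → G) → A) :
    IsInfl A U x ↔ IsInfl₁ A U ((cochainsIso₁ A).hom x) := by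
  constructor
  · intro h
    refine ⟨fun g s hs => ?_, fun g u hu => h.2 _ u hu⟩
    have := h.1 (fun _ => g) (fun _ => s) (fun _ => hs)
    exact this
  · intro h
    refine ⟨fun g s hs => ?_, fun g u hu => ?_⟩
    · have := h.1 (g 0) (s 0) (hs 0)
      have e1 : (g * s) = fun _ => g 0 * s 0 := by
        funext i; rw [Subsingleton.elim i 0]; rfl
      have e2 : g = fun _ => g 0 := by
        funext i; rw [Subsingleton.elim i 0]
      rw [e1]
      conv_rhs => rw [e2]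
      exact this
    · have e2 : g = fun _ => g 0 := by
        funext i; rw [Subsingleton.elim i 0]
      rw [e2]
      exact h.2 (g 0) u hu

theorem isInfl_two_iff (x : (Fin 2 → G) → A) :
    IsInfl A U x ↔ IsInfl₂ A U ((cochainsIso₂ A).hom x) := by
  constructor
  · intro h
    refine ⟨fun g g' s s' hs hs' => ?_, fun g u hu => h.2 _ u hu⟩
    have := h.1 ![g, g'] ![s, s'] (fun i => by fin_cases i <;> assumption)
    have e : (![g, g'] * ![s, s'] : Fin 2 → G) = ![g * s, g' * s'] := by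
      funext i; fin_cases i <;> rfl
    rw [e] at this
    exact this
  · intro h
    refine ⟨fun g s hs => ?_, fun g u hu => ?_⟩
    · have := h.1 (g 0) (g 1) (s 0) (s 1) (hs 0) (hs 1)
      have e1 : (g * s) = ![g 0 * s 0, g 1 * s 1] := by
        funext i; fin_cases i <;> rfl
      have e2 : g = ![g 0, g 1] := by
        funext i; fin_cases i <;> rfl
      rw [e1]
      conv_rhs => rw [e2]
      exact this
    · have e2 : g = ![g 0, g 1] := by
        funext i; fin_cases i <;> rfl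
      rw [e2]
      exact h.2 (g 0, g 1) u hu

end Predicates

section Submodules

variable (𝒰 : Levels G) (A : Rep.{u} k G)

/-- Smooth functions `G → A`. -/
def smooth₁ : Submodule k (G → A) :=
  (smoothCochains 𝒰 A 1).comap (cochainsIso₁ A).inv.hom

/-- Smooth functions `G × G → A`. -/
def smooth₂ : Submodule k (G × G → A) :=
  (smoothCochains 𝒰 A 2).comap (cochainsIso₂ A).inv.hom

/-- Smooth vectors of `A`. -/
def smooth₀ : Submodule k A :=
  (smoothCochains 𝒰 A 0).comap (cochainsIso₀ A).inv.hom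

variable {𝒰 A}

theorem mem_smooth₀_iff {a : A} :
    a ∈ smooth₀ 𝒰 A ↔ ∃ U ∈ 𝒰.carrier, ∀ u ∈ U, A.ρ u a = a := by
  change (∃ U ∈ 𝒰.carrier, IsInfl A U ((cochainsIso₀ A).inv a)) ↔ _
  refine exists_congr fun U => and_congr_right fun _ => ?_
  rw [isInfl_zero_iff]
  rfl

theorem mem_smooth₁_iff {f : G → A} :
    f ∈ smooth₁ 𝒰 A ↔ ∃ U ∈ 𝒰.carrier, IsInfl₁ A U f := by
  change (∃ U ∈ 𝒰.carrier, IsInfl A U ((cochainsIso₁ A).inv f)) ↔ _
  refine exists_congr fun U => and_congr_right fun _ => ?_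
  rw [isInfl_one_iff]
  rfl

theorem mem_smooth₂_iff {f : G × G → A} :
    f ∈ smooth₂ 𝒰 A ↔ ∃ U ∈ 𝒰.carrier, IsInfl₂ A U f := by
  change (∃ U ∈ 𝒰.carrier, IsInfl A U ((cochainsIso₂ A).inv f)) ↔ _
  refine exists_congr fun U => and_congr_right fun _ => ?_
  rw [isInfl_two_iff]
  rfl

variable (𝒰 A)

/-- Smooth 1-cocycles. -/
def smoothZ₁ : Submodule k (G → A) := cocycles₁ A ⊓ smooth₁ 𝒰 A

/-- Smooth 2-cocycles. -/
def smoothZ₂ : Submodule k (G × G → A) := cocycles₂ A ⊓ smooth₂ 𝒰 A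

/-- Smooth 1-coboundaries. -/
def smoothB₁ : Submodule k (G → A) := (smooth₀ 𝒰 A).map (d₀₁ A).hom

/-- Smooth 2-coboundaries. -/
def smoothB₂ : Submodule k (G × G → A) := (smooth₁ 𝒰 A).map (d₁₂ A).hom

end Submodules

section Equivs

variable (𝒰 : Levels G) (A : Rep.{u} k G)

theorem d_inv₁ (f : G → A) :
    (inhomogeneousCochains.d A 1).hom ((cochainsIso₁ A).inv f) =
      (cochainsIso₂ A).inv ((d₁₂ A).hom f) := by
  have := congr($(eq_d₁₂_comp_inv A) f)
  simp only [ModuleCat.hom_comp, LinearMap.comp_apply] at this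
  exact this

theorem d_inv₂ (f : G × G → A) :
    (inhomogeneousCochains.d A 2).hom ((cochainsIso₂ A).inv f) =
      (cochainsIso₃ A).inv ((d₂₃ A).hom f) := by
  have := congr($(eq_d₂₃_comp_inv A) f)
  simp only [ModuleCat.hom_comp, LinearMap.comp_apply] at this
  exact this

theorem d_inv₀ (a : A) :
    (inhomogeneousCochains.d A 0).hom ((cochainsIso₀ A).inv a) =
      (cochainsIso₁ A).inv ((d₀₁ A).hom a) := by
  have := congr($(eq_d₀₁_comp_inv A) a)
  simp only [ModuleCat.hom_comp, LinearMap.comp_apply] at this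
  exact this

theorem inv₂_injective : Function.Injective (cochainsIso₂ A).inv.hom :=
  (ModuleCat.mono_iff_injective _).1 inferInstance

theorem inv₁_injective : Function.Injective (cochainsIso₁ A).inv.hom :=
  (ModuleCat.mono_iff_injective _).1 inferInstance

theorem inv₃_injective : Function.Injective (cochainsIso₃ A).inv.hom :=
  (ModuleCat.mono_iff_injective _).1 inferInstance

/-- The map from smooth 2-cocycles in low-degree form to smooth 2-cocycles. -/
def smoothZ₂ToCocycles : smoothZ₂ 𝒰 A →ₗ[k] smoothCocycles 𝒰 A 2 :=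
  (cochainsIso₂ A).inv.hom.restrict fun f hf => by
    refine ⟨hf.2, LinearMap.mem_ker.2 ?_⟩
    rw [d_inv₂]
    have : (d₂₃ A).hom f = 0 := hf.1
    rw [this, map_zero]

theorem smoothZ₂ToCocycles_surjective : Function.Surjective (smoothZ₂ToCocycles 𝒰 A) := by
  rintro ⟨x, hx, hd⟩
  refine ⟨⟨(cochainsIso₂ A).hom x, ?_, ?_⟩, ?_⟩
  · show (d₂₃ A).hom ((cochainsIso₂ A).hom x) = 0
    apply inv₃_injective
    rw [map_zero, ← d_inv₂]
    have : (cochainsIso₂ A).inv ((cochainsIso₂ A).hom x) = x := by simp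
    rw [this]
    exact hd
  · show (cochainsIso₂ A).inv ((cochainsIso₂ A).hom x) ∈ smoothCochains 𝒰 A 2
    have : (cochainsIso₂ A).inv ((cochainsIso₂ A).hom x) = x := by simp
    rw [this]
    exact hx
  · apply Subtype.ext
    show (cochainsIso₂ A).inv ((cochainsIso₂ A).hom x) = x
    simp

/-- The map from smooth 1-cocycles in low-degree form to smooth 1-cocycles. -/
def smoothZ₁ToCocycles : smoothZ₁ 𝒰 A →ₗ[k] smoothCocycles 𝒰 A 1 :=
  (cochainsIso₁ A).inv.hom.restrict fun f hf => by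
    refine ⟨hf.2, LinearMap.mem_ker.2 ?_⟩
    rw [d_inv₁]
    have : (d₁₂ A).hom f = 0 := hf.1
    rw [this, map_zero]

theorem smoothZ₁ToCocycles_surjective : Function.Surjective (smoothZ₁ToCocycles 𝒰 A) := by
  rintro ⟨x, hx, hd⟩
  refine ⟨⟨(cochainsIso₁ A).hom x, ?_, ?_⟩, ?_⟩
  · show (d₁₂ A).hom ((cochainsIso₁ A).hom x) = 0
    apply inv₂_injective
    rw [map_zero, ← d_inv₁]
    have : (cochainsIso₁ A).inv ((cochainsIso₁ A).hom x) = x := by simp
    rw [this]
    exact hd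
  · show (cochainsIso₁ A).inv ((cochainsIso₁ A).hom x) ∈ smoothCochains 𝒰 A 1
    have : (cochainsIso₁ A).inv ((cochainsIso₁ A).hom x) = x := by simp
    rw [this]
    exact hx
  · apply Subtype.ext
    show (cochainsIso₁ A).inv ((cochainsIso₁ A).hom x) = x
    simp

/-- The class of a smooth 2-cocycle (low-degree form). -/
def smoothH2π : smoothZ₂ 𝒰 A →ₗ[k] smoothCohomology 𝒰 A 2 :=
  smoothCls 𝒰 A 2 ∘ₗ smoothZ₂ToCocycles 𝒰 A

/-- The class of a smooth 1-cocycle (low-degree form). -/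
def smoothH1π : smoothZ₁ 𝒰 A →ₗ[k] smoothCohomology 𝒰 A 1 :=
  smoothCls 𝒰 A 1 ∘ₗ smoothZ₁ToCocycles 𝒰 A

theorem smoothH2π_surjective : Function.Surjective (smoothH2π 𝒰 A) :=
  (smoothCls_surjective 𝒰 A 2).comp (smoothZ₂ToCocycles_surjective 𝒰 A)

theorem smoothH1π_surjective : Function.Surjective (smoothH1π 𝒰 A) :=
  (smoothCls_surjective 𝒰 A 1).comp (smoothZ₁ToCocycles_surjective 𝒰 A)

variable {𝒰 A}

theorem smoothH2π_eq_zero_iff (f : smoothZ₂ 𝒰 A) :
    smoothH2π 𝒰 A f = 0 ↔ (f : G × G → A) ∈ smoothB₂ 𝒰 A := by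
  rw [smoothH2π, LinearMap.comp_apply, smoothCls_eq_zero_iff]
  constructor
  · rintro ⟨y, hy, hd⟩
    refine ⟨(cochainsIso₁ A).hom y, ?_, ?_⟩
    · show (cochainsIso₁ A).inv ((cochainsIso₁ A).hom y) ∈ smoothCochains 𝒰 A 1
      have : (cochainsIso₁ A).inv ((cochainsIso₁ A).hom y) = y := by simp
      rw [this]
      exact hy
    · apply inv₂_injective
      show (cochainsIso₂ A).inv ((d₁₂ A).hom ((cochainsIso₁ A).hom y)) = (cochainsIso₂ A).inv f.1
      rw [← d_inv₁]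
      have : (cochainsIso₁ A).inv ((cochainsIso₁ A).hom y) = y := by simp
      rw [this]
      exact hd
  · rintro ⟨c, hc, hd⟩
    refine ⟨(cochainsIso₁ A).inv c, hc, ?_⟩
    rw [d_inv₁, hd]
    rfl

theorem smoothH1π_eq_zero_iff (f : smoothZ₁ 𝒰 A) :
    smoothH1π 𝒰 A f = 0 ↔ (f : G → A) ∈ smoothB₁ 𝒰 A := by
  rw [smoothH1π, LinearMap.comp_apply, smoothCls_eq_zero_iff]
  constructor
  · rintro ⟨y, hy, hd⟩
    refine ⟨(cochainsIso₀ A).hom y, ?_, ?_⟩
    · show (cochainsIso₀ A).inv ((cochainsIso₀ A).hom y) ∈ smoothCochains 𝒰 A 0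
      have : (cochainsIso₀ A).inv ((cochainsIso₀ A).hom y) = y := by simp
      rw [this]
      exact hy
    · apply inv₁_injective
      show (cochainsIso₁ A).inv ((d₀₁ A).hom ((cochainsIso₀ A).hom y)) = (cochainsIso₁ A).inv f.1
      rw [← d_inv₀]
      have : (cochainsIso₀ A).inv ((cochainsIso₀ A).hom y) = y := by simp
      rw [this]
      exact hd
  · rintro ⟨c, hc, hd⟩
    refine ⟨(cochainsIso₀ A).inv c, hc, ?_⟩
    rw [d_inv₀, hd]
    rfl

variable (𝒰 A)

/-- `H²_sm ≃ Z²_sm / B²_sm` in low-degree form. -/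
def smoothH2Equiv :
    (smoothZ₂ 𝒰 A ⧸ (smoothB₂ 𝒰 A).comap (smoothZ₂ 𝒰 A).subtype) ≃ₗ[k]
      smoothCohomology 𝒰 A 2 :=
  (Submodule.quotEquivOfEq _ _ (by
    ext f
    rw [LinearMap.mem_ker, smoothH2π_eq_zero_iff]
    rfl)).trans
    ((smoothH2π 𝒰 A).quotKerEquivOfSurjective (smoothH2π_surjective 𝒰 A))

/-- `H¹_sm ≃ Z¹_sm / B¹_sm` in low-degree form. -/
def smoothH1Equiv :
    (smoothZ₁ 𝒰 A ⧸ (smoothB₁ 𝒰 A).comap (smoothZ₁ 𝒰 A).subtype) ≃ₗ[k]
      smoothCohomology 𝒰 A 1 :=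
  (Submodule.quotEquivOfEq _ _ (by
    ext f
    rw [LinearMap.mem_ker, smoothH1π_eq_zero_iff]
    rfl)).trans
    ((smoothH1π 𝒰 A).quotKerEquivOfSurjective (smoothH1π_surjective 𝒰 A))

@[simp]
theorem smoothH2Equiv_mk (f : smoothZ₂ 𝒰 A) :
    smoothH2Equiv 𝒰 A (Submodule.Quotient.mk f) = smoothH2π 𝒰 A f := rfl

@[simp]
theorem smoothH1Equiv_mk (f : smoothZ₁ 𝒰 A) :
    smoothH1Equiv 𝒰 A (Submodule.Quotient.mk f) = smoothH1π 𝒰 A f := rfl

end Equivs

end

end Fermat.Agent.S55.Smooth
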