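import Fermat.Agent.S55.Smooth.Galois
import Fermat.Agent.S55.Smooth.LowDegree

/-!
# S55, D-layer foundation: the Prelude's continuous cohomology is smooth cohomology

For `M : Rep k G_ℚ` on which some `S`-level acts trivially (`HasLevel S M`):

* `continuousH2SEquiv : continuousH2S S M ≃ₗ smoothCohomology (globalLevels S) M 2`;
* `continuousH2Equiv r : continuousH2 r (res r M) ≃ₗ smoothCohomology (localLevels r) (res r M) 2`;
* `continuousH2Equiv_locRes₂S`: these identify the Prelude's `locRes₂S` with `smoothMap`.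
-/

set_option autoImplicit false

open CategoryTheory groupCohomology

namespace Fermat.Agent.S55.Smooth

noncomputable section

/-- Transport of a subquotient along equalities of submodules. -/
def subquotEquivOfEq {k X : Type*} [CommRing k] [AddCommGroup X] [Module k X]
    (Z Z' B B' : Submodule k X) (hZ : Z = Z') (hB : B = B') :
    (Z ⧸ B.comap Z.subtype) ≃ₗ[k] (Z' ⧸ B'.comap Z'.subtype) :=
  Submodule.Quotient.equiv _ _ (LinearEquiv.ofEq Z Z' hZ) (by
    subst hZ hB
    ext x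
    simp)

@[simp]
theorem subquotEquivOfEq_mk {k X : Type*} [CommRing k] [AddCommGroup X] [Module k X]
    (Z Z' B B' : Submodule k X) (hZ : Z = Z') (hB : B = B') (x : Z) :
    subquotEquivOfEq Z Z' B B' hZ hB (Submodule.Quotient.mk x) =
      Submodule.Quotient.mk ⟨x.1, hZ ▸ x.2⟩ := rfl

variable (S : Finset Nat.Primes) {k : Type} [CommRing k] (M : Rep.{0, 0, 0} k GQ)

/-- Some `S`-level acts trivially on `M`. -/
def HasLevel : Prop := ∃ U ∈ (globalLevels S).carrier, ∀ u ∈ U, M.ρ u = 1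

/-- Some level of `𝒰` acts trivially on `A`. -/
def HasLevelIn {G : Type} [Group G] (𝒰 : Levels G) (A : Rep.{0, 0, 0} k G) : Prop :=
  ∃ U ∈ 𝒰.carrier, ∀ u ∈ U, A.ρ u = 1

theorem hasLevelIn_global_iff : HasLevelIn (globalLevels S) M ↔ HasLevel S M := Iff.rfl

variable {S M}

theorem HasLevel.local (hM : HasLevel S M) {H : Type} [Group H] (r : H →* GQ) :
    HasLevelIn (localLevels r) (Rep.res r M) := by
  obtain ⟨U, hU, h⟩ := hM
  obtain ⟨V, hV, hVU⟩ := levelsCompat_local_global S r U hU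
  exact ⟨V, hV, fun v hv => h _ (hVU hv)⟩

section General

variable {G : Type} [Group G] {𝒰 : Levels G} {A : Rep.{0, 0, 0} k G}

theorem HasLevelIn.isSmoothRep (hA : HasLevelIn 𝒰 A) : IsSmoothRep 𝒰 A := by
  obtain ⟨U, hU, h⟩ := hA
  exact fun a => ⟨U, hU, fun u hu => by rw [h u hu]; rfl⟩

theorem HasLevelIn.mem_smooth₁_iff (hA : HasLevelIn 𝒰 A) (f : G → A) :
    f ∈ smooth₁ 𝒰 A ↔ ∃ U ∈ 𝒰.carrier, ∀ g s, s ∈ U → f (g * s) = f g := by
  rw [Smooth.mem_smooth₁_iff]
  constructor
  · rintro ⟨U, hU, h⟩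
    exact ⟨U, hU, h.1⟩
  · rintro ⟨U, hU, h⟩
    obtain ⟨U₀, hU₀, h₀⟩ := hA
    obtain ⟨W, hW, hWU, hWU₀⟩ := 𝒰.directed' U hU U₀ hU₀
    exact ⟨W, hW, fun g s hs => h g s (hWU hs), fun g u hu => by rw [h₀ u (hWU₀ hu)]; rfl⟩

theorem HasLevelIn.mem_smooth₂_iff (hA : HasLevelIn 𝒰 A) (f : G × G → A) :
    f ∈ smooth₂ 𝒰 A ↔
      ∃ U ∈ 𝒰.carrier, ∀ g g' s s', s ∈ U → s' ∈ U → f (g * s, g' * s') = f (g, g') := by
  rw [Smooth.mem_smooth₂_iff]
  constructor
  · rintro ⟨U, hU, h⟩
    exact ⟨U, hU, h.1⟩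
  · rintro ⟨U, hU, h⟩
    obtain ⟨U₀, hU₀, h₀⟩ := hA
    obtain ⟨W, hW, hWU, hWU₀⟩ := 𝒰.directed' U hU U₀ hU₀
    exact ⟨W, hW, fun g g' s s' hs hs' => h g g' s s' (hWU hs) (hWU hs'),
      fun g u hu => by rw [h₀ u (hWU₀ hu)]; rfl⟩

end General

section Global

variable (hM : HasLevel S M)
include hM

theorem levelCochainsS₁_eq : levelCochainsS₁ S M = smooth₁ (globalLevels S) M := by
  ext f
  rw [mem_levelCochainsS₁_iff, isLevelConstantS₁_iff,
    HasLevelIn.mem_smooth₁_iff ((hasLevelIn_global_iff S M).2 hM)]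

theorem levelCochainsS₂_eq : levelCochainsS₂ S M = smooth₂ (globalLevels S) M := by
  ext f
  rw [mem_levelCochainsS₂_iff, isLevelConstantS₂_iff,
    HasLevelIn.mem_smooth₂_iff ((hasLevelIn_global_iff S M).2 hM)]

theorem levelCocyclesS₂_eq : levelCocyclesS₂ S M = smoothZ₂ (globalLevels S) M := by
  rw [levelCocyclesS₂, levelCochainsS₂_eq hM]
  rfl

theorem levelCoboundariesS₂_eq : levelCoboundariesS₂ S M = smoothB₂ (globalLevels S) M := by
  rw [levelCoboundariesS₂, levelCochainsS₁_eq hM]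
  rfl

/-- The Prelude's `continuousH2S` is smooth cohomology in degree 2. -/
def continuousH2SEquiv :
    continuousH2S S M ≃ₗ[k] smoothCohomology (globalLevels S) M 2 :=
  (subquotEquivOfEq _ _ _ _ (levelCocyclesS₂_eq hM) (levelCoboundariesS₂_eq hM)).trans
    (smoothH2Equiv (globalLevels S) M)

theorem continuousH2SEquiv_mk (f : ↥(levelCocyclesS₂ S M)) :
    continuousH2SEquiv hM (continuousH2Sπ S M f) =
      smoothH2π (globalLevels S) M ⟨f.1, levelCocyclesS₂_eq hM ▸ f.2⟩ := rfl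

end Global

section Local

variable {H : Type} [Group H] (r : H →* GQ) {N : Rep.{0, 0, 0} k H}
  (hN : HasLevelIn (localLevels r) N)
include hN

theorem levelCochains₁_eq : levelCochains₁ r N = smooth₁ (localLevels r) N := by
  ext f
  rw [mem_levelCochains₁_iff, isLevelConstant₁_iff, hN.mem_smooth₁_iff]

theorem levelCochains₂_eq : levelCochains₂ r N = smooth₂ (localLevels r) N := by
  ext f
  rw [mem_levelCochains₂_iff, isLevelConstant₂_iff, hN.mem_smooth₂_iff]

theorem levelCocycles₂_eq : levelCocycles₂ r N = smoothZ₂ (localLevels r) N := by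
  rw [levelCocycles₂, levelCochains₂_eq r hN]
  rfl

theorem levelCoboundaries₂_eq : levelCoboundaries₂ r N = smoothB₂ (localLevels r) N := by
  rw [levelCoboundaries₂, levelCochains₁_eq r hN]
  rfl

/-- The Prelude's local `continuousH2` is smooth cohomology in degree 2. -/
def continuousH2Equiv :
    continuousH2 r N ≃ₗ[k] smoothCohomology (localLevels r) N 2 :=
  (subquotEquivOfEq _ _ _ _ (levelCocycles₂_eq r hN) (levelCoboundaries₂_eq r hN)).trans
    (smoothH2Equiv (localLevels r) N)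

theorem continuousH2Equiv_mk (f : ↥(levelCocycles₂ r N)) :
    continuousH2Equiv r hN (continuousH2π r N f) =
      smoothH2π (localLevels r) N ⟨f.1, levelCocycles₂_eq r hN ▸ f.2⟩ := rfl

end Local

end

end Fermat.Agent.S55.Smooth
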