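import Fermat.Agent.S55.Smooth.LowDegree

/-!
# S55, D-layer foundation: from smooth cohomology to abstract group cohomology

The inclusion of smooth cochains into all cochains induces `smoothToH : Hⁿ_sm(A) ⟶ Hⁿ(G, A)`.
In degree 1 it is injective, with image the classes of smooth 1-cocycles.
-/

set_option autoImplicit false

universe u

open CategoryTheory groupCohomology

namespace Fermat.Agent.S55.Smooth

noncomputable section

variable {k G : Type u} [CommRing k] [Group G]

section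

variable (𝒰 : Levels G) (A : Rep.{u} k G)

/-- The inclusion of the complex of smooth cochains into the complex of all cochains. -/
def smoothι : smoothComplex 𝒰 A ⟶ inhomogeneousCochains A :=
  CochainComplex.ofHom
    (fun n => ModuleCat.ofHom (smoothCochains 𝒰 A n).subtype)
    (fun n => by
      rw [smoothComplex_d]
      ext x : 2
      simp only [CochainComplex.of_d]
      rfl)

@[simp]
theorem smoothι_f_apply (n : ℕ) (x : smoothCochains 𝒰 A n) :
    ((smoothι 𝒰 A).f n).hom x = x.1 := rfl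

/-- The map from smooth cohomology to abstract group cohomology. -/
def smoothToH (n : ℕ) : smoothCohomology 𝒰 A n ⟶ groupCohomology A n :=
  HomologicalComplex.homologyMap (smoothι 𝒰 A) n

/-- All cocycles in elementwise form give cocycles of the complex of inhomogeneous cochains. -/
def cocyclesToZ (n : ℕ) (x : (Fin n → G) → A) (hx : (inhomogeneousCochains.d A n).hom x = 0) :
    Zₗ (inhomogeneousCochains A) n :=
  ⟨x, by
    rw [LinearMap.mem_ker]
    simp only [CochainComplex.of_d]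
    exact hx⟩

theorem smoothToH_smoothCls (n : ℕ) (x : smoothCocycles 𝒰 A n) :
    (smoothToH 𝒰 A n).hom (smoothCls 𝒰 A n x) =
      clsₗ (inhomogeneousCochains A) n (cocyclesToZ A n x.1 x.2.2) := by
  exact homologyMap_clsₗ (smoothι 𝒰 A) n (smoothCocyclesToZ 𝒰 A n x)

end

section H1

variable (A : Rep.{u} k G)

theorem H1π_eq_clsₗ (f : cocycles₁ A) :
    (H1π A).hom f = clsₗ (inhomogeneousCochains A) 1
      (cocyclesToZ A 1 ((cochainsIso₁ A).inv f.1) (by
        rw [d_inv₁]
        have : (d₁₂ A).hom f.1 = 0 := f.2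
        rw [this, map_zero])) := by
  show (groupCohomology.π A 1).hom ((isoCocycles₁ A).inv.hom f) = _
  rw [clsₗ, LinearMap.comp_apply]
  congr 1
  apply iCycles_injective
  rw [iCycles_toCyclesₗ]
  exact isoCocycles₁_inv_comp_iCocycles_apply A f

variable (𝒰 : Levels G)

theorem smoothToH_smoothH1π (f : smoothZ₁ 𝒰 A) :
    (smoothToH 𝒰 A 1).hom (smoothH1π 𝒰 A f) = (H1π A).hom ⟨f.1, f.2.1⟩ := by
  rw [smoothH1π, LinearMap.comp_apply, smoothToH_smoothCls, H1π_eq_clsₗ]
  rfl

theorem smoothToH_one_injective : Function.Injective (smoothToH 𝒰 A 1).hom := by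
  rw [← LinearMap.ker_eq_bot, LinearMap.ker_eq_bot']
  intro x hx
  obtain ⟨f, rfl⟩ := smoothH1π_surjective 𝒰 A x
  rw [smoothToH_smoothH1π, H1π_eq_zero_iff] at hx
  rw [smoothH1π_eq_zero_iff]
  obtain ⟨a, ha⟩ := hx
  refine ⟨a, ?_, ha⟩
  obtain ⟨U, hU, hf⟩ := (mem_smooth₁_iff).1 f.2.2
  refine mem_smooth₀_iff.2 ⟨U, hU, fun u hu => ?_⟩
  have h1 := hf.1 1 u hu
  have ha' : ∀ g, f.1 g = A.ρ g a - a := fun g => by
    have := congr_fun ha g
    rw [d₀₁_hom_apply] at this
    exact this.symm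
  rw [ha', ha', one_mul, map_one] at h1
  simp only [Module.End.one_apply, sub_self] at h1
  exact sub_eq_zero.1 h1

theorem mem_range_smoothToH_one_iff (x : H1 A) :
    x ∈ LinearMap.range (smoothToH 𝒰 A 1).hom ↔
      ∃ c : cocycles₁ A, (c : G → A) ∈ smooth₁ 𝒰 A ∧ (H1π A).hom c = x := by
  constructor
  · rintro ⟨y, rfl⟩
    obtain ⟨f, rfl⟩ := smoothH1π_surjective 𝒰 A y
    exact ⟨⟨f.1, f.2.1⟩, f.2.2, (smoothToH_smoothH1π A 𝒰 f).symm⟩
  · rintro ⟨c, hc, rfl⟩
    exact ⟨smoothH1π 𝒰 A ⟨c.1, c.2, hc⟩, smoothToH_smoothH1π A 𝒰 _⟩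

end H1

section Naturality

variable {H : Type u} [Group H] {𝒱 : Levels G} {𝒰 : Levels H} {A : Rep.{u} k H}
  {B : Rep.{u} k G} (f : G →* H) (φ : Rep.res f A ⟶ B) (hf : LevelsCompat f 𝒱 𝒰)

theorem smoothCochainsMap_comp_smoothι :
    smoothCochainsMap f φ hf ≫ smoothι 𝒱 B = smoothι 𝒰 A ≫ cochainsMap f φ := by
  ext n x : 3
  rfl

theorem smoothMap_comp_smoothToH (n : ℕ) :
    smoothMap f φ hf n ≫ smoothToH 𝒱 B n = smoothToH 𝒰 A n ≫ groupCohomology.map f φ n := by
  have h1 := HomologicalComplex.homologyMap_comp (smoothCochainsMap f φ hf) (smoothι 𝒱 B) n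
  have h2 := HomologicalComplex.homologyMap_comp (smoothι 𝒰 A) (cochainsMap f φ) n
  rw [smoothCochainsMap_comp_smoothι] at h1
  exact h1.symm.trans h2

theorem smoothToH_smoothMap_apply (n : ℕ) (x : smoothCohomology 𝒰 A n) :
    (smoothToH 𝒱 B n).hom ((smoothMap f φ hf n).hom x) =
      (groupCohomology.map f φ n).hom ((smoothToH 𝒰 A n).hom x) :=
  congr($(smoothMap_comp_smoothToH f φ hf n) x)

end Naturality

end

end Fermat.Agent.S55.Smooth
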