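import Fermat.Agent.S55.Smooth.CompareLoc
import Fermat.Agent.S55.Smooth.ToAbstract

/-!
# S55, D-layer foundation: `continuousH1S` and `sha₁` in terms of smooth cohomology
-/

set_option autoImplicit false

open CategoryTheory groupCohomology ExtCitation

namespace Fermat.Agent.S55.Smooth

noncomputable section

section

variable {S : Finset Nat.Primes} {k : Type} [CommRing k] {A : Rep.{0, 0, 0} k GQ}

/-- The Prelude's `continuousH1S` is the image of smooth `H¹`. -/
theorem continuousH1S_eq_range (hA : HasLevel S A) :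
    continuousH1S S A = LinearMap.range (smoothToH (globalLevels S) A 1).hom := by
  ext x
  rw [mem_continuousH1S_iff, mem_range_smoothToH_one_iff]
  refine exists_congr fun c => and_congr_left fun _ => ?_
  rw [← levelCochainsS₁_eq hA, mem_levelCochainsS₁_iff]

/-- Smooth `H¹` is the Prelude's `continuousH1S`. -/
def continuousH1SEquiv (hA : HasLevel S A) :
    smoothCohomology (globalLevels S) A 1 ≃ₗ[k] continuousH1S S A :=
  (LinearEquiv.ofInjective (smoothToH (globalLevels S) A 1).hom
    (smoothToH_one_injective A (globalLevels S))).trans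
    (LinearEquiv.ofEq _ _ (continuousH1S_eq_range hA).symm)

@[simp]
theorem continuousH1SEquiv_coe (hA : HasLevel S A) (y : smoothCohomology (globalLevels S) A 1) :
    (continuousH1SEquiv hA y : H1 A) = (smoothToH (globalLevels S) A 1).hom y := rfl

variable (S A) in
/-- The smooth version of `sha₁`. -/
def smoothSha₁ : Submodule k (smoothCohomology (globalLevels S) A 1) :=
  ⨅ q : ↥S, LinearMap.ker (smoothRes S A (primeLocalToGlobal q.1) 1).hom

theorem mem_smoothSha₁_iff (x : smoothCohomology (globalLevels S) A 1) :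
    x ∈ smoothSha₁ S A ↔ ∀ q : ↥S, (smoothRes S A (primeLocalToGlobal q.1) 1).hom x = 0 := by
  simp [smoothSha₁, Submodule.mem_iInf]

theorem smoothRes_one_eq_zero_iff {H : Type} [Group H] (r : H →* GQ)
    (y : smoothCohomology (globalLevels S) A 1) :
    (smoothRes S A r 1).hom y = 0 ↔
      (groupCohomology.map r (𝟙 (Rep.res r A)) 1).hom ((smoothToH (globalLevels S) A 1).hom y)
        = 0 := by
  rw [← smoothToH_smoothMap_apply r (𝟙 (Rep.res r A)) (levelsCompat_local_global S r) 1 y]
  constructor
  · intro h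
    rw [h, map_zero]
  · intro h
    apply smoothToH_one_injective (Rep.res r A) (localLevels r)
    rw [h, map_zero]

end

section Field

variable {S : Finset Nat.Primes} {K : Type} [Field K] {A : Rep.{0, 0, 0} K GQ}

theorem smoothToH_mem_sha₁_iff (h2 : (2 : K) ≠ 0) (hA : HasLevel S A)
    (y : smoothCohomology (globalLevels S) A 1) :
    (smoothToH (globalLevels S) A 1).hom y ∈ sha₁ S A ↔ y ∈ smoothSha₁ S A := by
  rw [Bridge.mem_sha₁_iff S h2, mem_smoothSha₁_iff, continuousH1S_eq_range hA]
  constructor
  · rintro ⟨-, h⟩ q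
    exact (smoothRes_one_eq_zero_iff _ y).2 (h q)
  · intro h
    exact ⟨⟨y, rfl⟩, fun q => (smoothRes_one_eq_zero_iff _ y).1 (h q)⟩

/-- The Prelude's `sha₁` is the smooth `Ш¹`. -/
def sha₁Equiv (h2 : (2 : K) ≠ 0) (hA : HasLevel S A) :
    sha₁ S A ≃ₗ[K] smoothSha₁ S A :=
  (LinearEquiv.ofBijective
    (((smoothToH (globalLevels S) A 1).hom ∘ₗ (smoothSha₁ S A).subtype).codRestrict (sha₁ S A)
      fun y => (smoothToH_mem_sha₁_iff h2 hA y.1).2 y.2)
    ⟨fun y y' h => Subtype.ext (smoothToH_one_injective A (globalLevels S)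
        (congr_arg Subtype.val h)),
      fun x => by
        have hx : (x : H1 A) ∈ continuousH1S S A := ((Bridge.mem_sha₁_iff S h2 A x.1).1 x.2).1
        rw [continuousH1S_eq_range hA] at hx
        obtain ⟨y, hy⟩ := hx
        refine ⟨⟨y, (smoothToH_mem_sha₁_iff h2 hA y).1 (hy ▸ x.2)⟩, Subtype.ext hy⟩⟩).symm

end Field

end

end Fermat.Agent.S55.Smooth
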