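import Fermat.Agent.S55.Smooth.Compare

/-!
# S55, D-layer foundation: localisation maps and `sha₂` in terms of smooth cohomology
-/

set_option autoImplicit false

open CategoryTheory groupCohomology ExtCitation

namespace Fermat.Agent.S55.Smooth

noncomputable section

variable {S : Finset Nat.Primes} {k : Type} [CommRing k] {M : Rep.{0, 0, 0} k GQ}

/-- The restriction map on smooth cohomology from `G_ℚ` (levels unramified outside `S`) to a
group `H` mapping to `G_ℚ` (all finite levels). -/
abbrev smoothRes (S : Finset Nat.Primes) (M : Rep.{0, 0, 0} k GQ) {H : Type} [Group H]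
    (r : H →* GQ) (n : ℕ) :
    smoothCohomology (globalLevels S) M n ⟶ smoothCohomology (localLevels r) (Rep.res r M) n :=
  smoothMap r (𝟙 (Rep.res r M)) (levelsCompat_local_global S r) n

/-- The Prelude's `locRes₂S` is the restriction map of smooth cohomology. -/
theorem continuousH2Equiv_locRes₂S (hM : HasLevel S M) {H : Type} [Group H] (r : H →* GQ)
    (x : continuousH2S S M) :
    continuousH2Equiv r (hM.local r) (locRes₂S S M r x) =
      (smoothRes S M r 2).hom (continuousH2SEquiv hM x) := by
  obtain ⟨f, rfl⟩ := Submodule.mkQ_surjective _ x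
  have h1 : locRes₂S S M r (Submodule.mkQ _ f)
      = continuousH2π r (Rep.res r M)
          (levelCocycles₂Map (rH := MonoidHom.id _) (rG := r) r (fun _ => rfl)
            (LinearMap.id : M →ₗ[k] Rep.res r M) (fun _ _ => rfl)
            (levelCocyclesS₂ToLevelCocycles₂ S M f)) := rfl
  rw [h1, continuousH2Equiv_mk]
  have h2 : continuousH2SEquiv hM (Submodule.mkQ _ f) =
      smoothH2π (globalLevels S) M ⟨f.1, levelCocyclesS₂_eq hM ▸ f.2⟩ := rfl
  rw [h2, smoothH2π, smoothH2π, LinearMap.comp_apply, LinearMap.comp_apply, smoothRes,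
    smoothMap_smoothCls]
  congr 1

variable (S M) in
/-- The smooth version of `sha₂`: classes in `H²_sm(G_ℚ, M)` (levels unramified outside `S`)
which restrict to zero in `H²_sm` of the local Galois groups at all `q ∈ S`. -/
def smoothSha₂ : Submodule k (smoothCohomology (globalLevels S) M 2) :=
  ⨅ q : ↥S, LinearMap.ker (smoothRes S M (primeLocalToGlobal q.1) 2).hom

theorem mem_smoothSha₂_iff (x : smoothCohomology (globalLevels S) M 2) :
    x ∈ smoothSha₂ S M ↔ ∀ q : ↥S, (smoothRes S M (primeLocalToGlobal q.1) 2).hom x = 0 := by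
  simp [smoothSha₂, Submodule.mem_iInf]

end

section Field

variable {S : Finset Nat.Primes} {K : Type} [Field K] {M : Rep.{0, 0, 0} K GQ}

theorem continuousH2SEquiv_mem_smoothSha₂_iff (h2 : (2 : K) ≠ 0) (hM : HasLevel S M)
    (x : continuousH2S S M) :
    continuousH2SEquiv hM x ∈ smoothSha₂ S M ↔ x ∈ sha₂ S M := by
  rw [mem_smoothSha₂_iff, Bridge.mem_sha₂_iff S h2]
  refine forall_congr' fun q => ?_
  rw [← continuousH2Equiv_locRes₂S hM, LinearEquiv.map_eq_zero_iff]

/-- The Prelude's `sha₂` is the smooth `Ш²`. -/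
noncomputable def sha₂Equiv (h2 : (2 : K) ≠ 0) (hM : HasLevel S M) :
    sha₂ S M ≃ₗ[K] smoothSha₂ S M :=
  (continuousH2SEquiv hM).ofSubmodules _ _ (by
    ext y
    rw [Submodule.mem_map_equiv]
    rw [← continuousH2SEquiv_mem_smoothSha₂_iff h2 hM]
    simp)

end Field

end Fermat.Agent.S55.Smooth
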