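import Fermat.Agent.S55.Smooth.Basic

/-!
# S55, D-layer foundation: the complex of smooth cochains and smooth cohomology
-/

set_option autoImplicit false

universe u

open CategoryTheory groupCohomology

namespace Fermat.Agent.S55.Smooth

variable {k G : Type u} [CommRing k] [Group G]

section Cochains

variable (𝒰 : Levels G) (A : Rep.{u} k G)

/-- The submodule of smooth `n`-cochains. -/
def smoothCochains (n : ℕ) : Submodule k ((Fin n → G) → A) where
  carrier := {f | ∃ U ∈ 𝒰.carrier, IsInfl A U f}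
  add_mem' := by
    rintro f f' ⟨U, hU, hf⟩ ⟨V, hV, hf'⟩
    obtain ⟨W, hW, hWU, hWV⟩ := 𝒰.directed' U hU V hV
    exact ⟨W, hW, (hf.mono hWU).add (hf'.mono hWV)⟩
  zero_mem' := by
    obtain ⟨U, hU⟩ := 𝒰.nonempty'
    exact ⟨U, hU, IsInfl.zero⟩
  smul_mem' := by
    rintro c f ⟨U, hU, hf⟩
    exact ⟨U, hU, hf.smul c⟩

variable {𝒰 A}

theorem mem_smoothCochains_iff {n : ℕ} {f : (Fin n → G) → A} :
    f ∈ smoothCochains 𝒰 A n ↔ ∃ U ∈ 𝒰.carrier, IsInfl A U f := Iff.rfl

theorem d_mem_smoothCochains {n : ℕ} {f : (Fin n → G) → A} (hf : f ∈ smoothCochains 𝒰 A n) :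
    (inhomogeneousCochains.d A n).hom f ∈ smoothCochains 𝒰 A (n + 1) := by
  obtain ⟨U, hU, hf⟩ := hf
  have := 𝒰.normal' U hU
  exact ⟨U, hU, hf.d⟩

variable (𝒰 A)

/-- The differential on smooth cochains. -/
noncomputable def smoothD (n : ℕ) :
    ModuleCat.of k (smoothCochains 𝒰 A n) ⟶ ModuleCat.of k (smoothCochains 𝒰 A (n + 1)) :=
  ModuleCat.ofHom <| (inhomogeneousCochains.d A n).hom.restrict fun _ hf => d_mem_smoothCochains hf

@[simp]
theorem smoothD_apply_coe (n : ℕ) (f : smoothCochains 𝒰 A n) :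
    ((smoothD 𝒰 A n).hom f : (Fin (n + 1) → G) → A) = (inhomogeneousCochains.d A n).hom f.1 := rfl

theorem smoothD_comp_smoothD (n : ℕ) : smoothD 𝒰 A n ≫ smoothD 𝒰 A (n + 1) = 0 := by
  ext f : 2
  apply Subtype.ext
  have := congr($(inhomogeneousCochains.d_comp_d (A := A) (n := n)) f.1)
  change (inhomogeneousCochains.d A (n + 1)).hom ((inhomogeneousCochains.d A n).hom f.1) = 0
  simpa using this

/-- The complex of smooth cochains. -/
noncomputable abbrev smoothComplex : CochainComplex (ModuleCat k) ℕ :=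
  CochainComplex.of (fun n => ModuleCat.of k (smoothCochains 𝒰 A n)) (smoothD 𝒰 A)
    (smoothD_comp_smoothD 𝒰 A)

theorem smoothComplex_d (n : ℕ) : (smoothComplex 𝒰 A).d n (n + 1) = smoothD 𝒰 A n := by
  simp

/-- Smooth cohomology. -/
noncomputable abbrev smoothCohomology (n : ℕ) : ModuleCat k := (smoothComplex 𝒰 A).homology n

end Cochains

end Fermat.Agent.S55.Smooth
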