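import Fermat.Agent.S55.Smooth.ToAbstract

/-!
# S55, D-layer foundation: smooth cohomology is the colimit of the finite levels

For a normal level `U`, inflation gives `smoothInf : Hⁿ(G ⧸ U, A^U) ⟶ Hⁿ_sm(A)`.
* `exists_smoothInf_eq`: every smooth class is inflated from some level;
* `exists_infLevel_eq_zero`: a class of level `U` which dies in `Hⁿ_sm(A)` dies at some level
  `V ≤ U`;
* `smoothInf_infLevel`: compatibility with the transition maps between levels.
-/

set_option autoImplicit false

universe u

open CategoryTheory groupCohomology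

namespace Fermat.Agent.S55.Smooth

noncomputable section

variable {k G : Type u} [CommRing k] [Group G]

section Infl

variable (A : Rep.{u} k G) (U : Subgroup G) [U.Normal]

/-- The inflation chain map from level `U`. -/
abbrev inflCochains :
    inhomogeneousCochains (A.quotientToInvariants U) ⟶ inhomogeneousCochains A :=
  cochainsMap (QuotientGroup.mk' U) (Rep.ofHom <| A.ρ.quotientToInvariants_lift U)

theorem inflCochains_apply (n : ℕ) (x : (Fin n → G ⧸ U) → A.quotientToInvariants U)
    (g : Fin n → G) :
    ((inflCochains A U).f n).hom x g = ((x fun i => (g i : G ⧸ U)).1 : A) := rfl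

theorem isInfl_inflCochains (n : ℕ) (x : (Fin n → G ⧸ U) → A.quotientToInvariants U) :
    IsInfl A U (((inflCochains A U).f n).hom x) := by
  refine ⟨fun g s hs => ?_, fun g u hu => ?_⟩
  · rw [inflCochains_apply, inflCochains_apply]
    congr 2
    funext i
    rw [Pi.mul_apply, QuotientGroup.mk_mul, (QuotientGroup.eq_one_iff (s i)).2 (hs i), mul_one]
  · rw [inflCochains_apply]
    exact (x fun i => (g i : G ⧸ U)).2 ⟨u, hu⟩

theorem inflCochains_injective (n : ℕ) : Function.Injective ((inflCochains A U).f n).hom := by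
  intro x y h
  funext q
  apply Subtype.ext
  have := congr_fun h (fun i => (q i).out)
  rw [inflCochains_apply, inflCochains_apply] at this
  simpa using this

variable {A U}

theorem exists_eq_inflCochains_of_isInfl {n : ℕ} {f : (Fin n → G) → A} (hf : IsInfl A U f) :
    ∃ x : (Fin n → G ⧸ U) → A.quotientToInvariants U, ((inflCochains A U).f n).hom x = f := by
  refine ⟨fun q => ⟨f fun i => (q i).out, fun u => hf.2 _ u.1 u.2⟩, ?_⟩
  funext g
  rw [inflCochains_apply]
  show f (fun i => ((g i : G ⧸ U)).out) = f g
  have h := hf.1 g (fun i => (g i)⁻¹ * ((g i : G ⧸ U)).out) fun i => by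
    rw [← QuotientGroup.eq]
    simp
  rw [← h]
  congr 1
  funext i
  simp

end Infl

section SmoothInf

variable (𝒰 : Levels G) (A : Rep.{u} k G) (U : Subgroup G) [U.Normal] (hU : U ∈ 𝒰.carrier)

/-- The inflation chain map from level `U` to smooth cochains. -/
def smoothInflCochains :
    inhomogeneousCochains (A.quotientToInvariants U) ⟶ smoothComplex 𝒰 A :=
  CochainComplex.ofHom
    (fun n => ModuleCat.ofHom <| ((inflCochains A U).f n).hom.codRestrict (smoothCochains 𝒰 A n)
      fun x => ⟨U, hU, isInfl_inflCochains A U n x⟩)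
    (fun n => by
      rw [smoothComplex_d]
      ext x : 2
      apply Subtype.ext
      have := congr($((inflCochains A U).comm n (n + 1)) x)
      simp only [CochainComplex.of_d] at this ⊢
      exact this)

theorem smoothInflCochains_f_apply_coe (n : ℕ)
    (x : (Fin n → G ⧸ U) → A.quotientToInvariants U) :
    ((((smoothInflCochains 𝒰 A U hU).f n).hom x : smoothCochains 𝒰 A n) : (Fin n → G) → A) =
      ((inflCochains A U).f n).hom x := rfl

/-- Inflation from level `U` to smooth cohomology. -/
def smoothInf (n : ℕ) :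
    groupCohomology (A.quotientToInvariants U) n ⟶ smoothCohomology 𝒰 A n :=
  HomologicalComplex.homologyMap (smoothInflCochains 𝒰 A U hU) n

theorem smoothInf_clsₗ (n : ℕ) (z : Zₗ (inhomogeneousCochains (A.quotientToInvariants U)) n) :
    (smoothInf 𝒰 A U hU n).hom (clsₗ _ n z) =
      clsₗ (smoothComplex 𝒰 A) n (mapZₗ (smoothInflCochains 𝒰 A U hU) n z) :=
  homologyMap_clsₗ (smoothInflCochains 𝒰 A U hU) n z

/-- `smoothToH ∘ smoothInf` is Mathlib's inflation map. -/
theorem smoothInf_comp_smoothToH (n : ℕ) :
    smoothInf 𝒰 A U hU n ≫ smoothToH 𝒰 A n =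
      groupCohomology.map (QuotientGroup.mk' U)
        (Rep.ofHom <| A.ρ.quotientToInvariants_lift U) n := by
  have h1 := HomologicalComplex.homologyMap_comp (smoothInflCochains 𝒰 A U hU) (smoothι 𝒰 A) n
  have h2 : smoothInflCochains 𝒰 A U hU ≫ smoothι 𝒰 A = inflCochains A U := by
    ext n x : 3
    rfl
  rw [h2] at h1
  exact h1.symm

end SmoothInf

section Exists

variable {𝒰 : Levels G} {A : Rep.{u} k G}

/-- Every smooth cohomology class is inflated from some level. -/
theorem exists_smoothInf_eq {n : ℕ} (x : smoothCohomology 𝒰 A n) :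
    ∃ (U : Subgroup G) (_ : U.Normal) (hU : U ∈ 𝒰.carrier)
      (y : groupCohomology (A.quotientToInvariants U) n), (smoothInf 𝒰 A U hU n).hom y = x := by
  obtain ⟨z, rfl⟩ := smoothCls_surjective 𝒰 A n x
  obtain ⟨U, hU, hz⟩ := z.2.1
  have hn := 𝒰.normal' U hU
  obtain ⟨w, hw⟩ := exists_eq_inflCochains_of_isInfl hz
  have hdw : (inhomogeneousCochains.d (A.quotientToInvariants U) n).hom w = 0 := by
    apply inflCochains_injective A U (n + 1)
    have := congr($((inflCochains A U).comm n (n + 1)) w)
    simp only [CochainComplex.of_d, ModuleCat.hom_comp, LinearMap.comp_apply] at this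
    rw [map_zero, ← this, hw]
    exact z.2.2
  refine ⟨U, hn, hU, clsₗ _ n (cocyclesToZ _ n w hdw), ?_⟩
  rw [smoothInf_clsₗ, smoothCls, LinearMap.comp_apply]
  congr 1
  apply Subtype.ext
  apply Subtype.ext
  exact hw

end Exists

section Transition

variable (A : Rep.{u} k G) {U V : Subgroup G} [U.Normal] [V.Normal] (h : V ≤ U)

/-- The projection `G ⧸ V → G ⧸ U` for `V ≤ U`. -/
abbrev levelMap : G ⧸ V →* G ⧸ U := QuotientGroup.map V U (MonoidHom.id G) h

/-- The inclusion `A^U → A^V` as a morphism of representations of `G ⧸ V`. -/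
def levelRepHom :
    Rep.res (levelMap h) (A.quotientToInvariants U) ⟶ A.quotientToInvariants V :=
  Rep.ofHom ⟨Submodule.inclusion (fun x hx v => hx ⟨v.1, h v.2⟩), fun q => by
    induction q using QuotientGroup.induction_on with
    | H g => rfl⟩

theorem levelRepHom_apply_coe (x : A.quotientToInvariants U) :
    (((levelRepHom A h).hom x : A.quotientToInvariants V) : A) = (x.1 : A) := rfl

/-- The transition (inflation) map between finite levels. -/
abbrev infLevel (n : ℕ) :
    groupCohomology (A.quotientToInvariants U) n ⟶ groupCohomology (A.quotientToInvariants V) n :=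
  groupCohomology.map (levelMap h) (levelRepHom A h) n

theorem levelCochains_comp_infl :
    cochainsMap (levelMap h) (levelRepHom A h) ≫ inflCochains A V = inflCochains A U := by
  ext n x : 3
  rfl

variable (𝒰 : Levels G) (hU : U ∈ 𝒰.carrier) (hV : V ∈ 𝒰.carrier)

theorem levelCochains_comp_smoothInfl :
    cochainsMap (levelMap h) (levelRepHom A h) ≫ smoothInflCochains 𝒰 A V hV =
      smoothInflCochains 𝒰 A U hU := by
  ext n x : 3
  rfl

/-- Inflation to smooth cohomology is compatible with the transition maps between levels. -/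
theorem infLevel_comp_smoothInf (n : ℕ) :
    infLevel A h n ≫ smoothInf 𝒰 A V hV n = smoothInf 𝒰 A U hU n := by
  have h1 := HomologicalComplex.homologyMap_comp (cochainsMap (levelMap h) (levelRepHom A h))
    (smoothInflCochains 𝒰 A V hV) n
  rw [levelCochains_comp_smoothInfl A h 𝒰 hU hV] at h1
  exact h1.symm

theorem smoothInf_infLevel (n : ℕ) (y : groupCohomology (A.quotientToInvariants U) n) :
    (smoothInf 𝒰 A V hV n).hom ((infLevel A h n).hom y) = (smoothInf 𝒰 A U hU n).hom y :=
  congr($(infLevel_comp_smoothInf A h 𝒰 hU hV n) y)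

theorem infLevel_clsₗ (n : ℕ) (z : Zₗ (inhomogeneousCochains (A.quotientToInvariants U)) n) :
    (infLevel A h n).hom (clsₗ _ n z) =
      clsₗ _ n (mapZₗ (cochainsMap (levelMap h) (levelRepHom A h)) n z) :=
  homologyMap_clsₗ _ n z

end Transition

section Vanishing

variable {𝒰 : Levels G} {A : Rep.{u} k G}

/-- A class of level `U` which dies in smooth cohomology dies at some level `V ≤ U`. -/
theorem exists_infLevel_eq_zero {U : Subgroup G} [U.Normal] (hU : U ∈ 𝒰.carrier) {n : ℕ}
    (y : groupCohomology (A.quotientToInvariants U) n)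
    (hy : (smoothInf 𝒰 A U hU n).hom y = 0) :
    ∃ (V : Subgroup G) (_ : V.Normal) (_ : V ∈ 𝒰.carrier) (h : V ≤ U),
      (infLevel A h n).hom y = 0 := by
  obtain ⟨z, rfl⟩ := clsₗ_surjective (inhomogeneousCochains (A.quotientToInvariants U)) n y
  rw [smoothInf_clsₗ] at hy
  cases n with
  | zero =>
    refine ⟨U, inferInstance, hU, le_rfl, ?_⟩
    have h0 := clsₗ_zero_injective (smoothComplex 𝒰 A) (hy.trans (map_zero _).symm)
    have h1 : z = 0 := by
      apply Subtype.ext
      apply inflCochains_injective A U 0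
      rw [ZeroMemClass.coe_zero, map_zero]
      exact congr_arg (fun t => ((t.1 : smoothCochains 𝒰 A 0) : (Fin 0 → G) → A)) h0
    have h2 : clsₗ (inhomogeneousCochains (A.quotientToInvariants U)) 0 z = 0 := by
      rw [h1, map_zero]
    exact (congr_arg _ h2).trans (map_zero _)
  | succ m =>
    rw [clsₗ_eq_zero_iff] at hy
    obtain ⟨w, hw⟩ := hy
    rw [smoothComplex_d] at hw
    obtain ⟨V', hV', hwV'⟩ := w.2
    obtain ⟨V, hV, hVU, hVV'⟩ := 𝒰.directed' U hU V' hV'
    have hVn := 𝒰.normal' V hV
    obtain ⟨wbar, hwbar⟩ := exists_eq_inflCochains_of_isInfl (hwV'.mono hVV')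
    refine ⟨V, hVn, hV, hVU, ?_⟩
    rw [infLevel_clsₗ]
    refine (clsₗ_eq_zero_iff _ m _).2 ⟨wbar, ?_⟩
    apply inflCochains_injective A V (m + 1)
    have e1 := congr($((inflCochains A V).comm m (m + 1)) wbar)
    simp only [ModuleCat.hom_comp, LinearMap.comp_apply] at e1
    rw [← e1, hwbar]
    have e2 : ((inflCochains A V).f (m + 1)).hom
        ((mapZₗ (cochainsMap (levelMap hVU) (levelRepHom A hVU)) (m + 1) z :
          Zₗ (inhomogeneousCochains (A.quotientToInvariants V)) (m + 1)) :
          (Fin (m + 1) → G ⧸ V) → A.quotientToInvariants V) =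
        ((inflCochains A U).f (m + 1)).hom z.1 := rfl
    rw [e2]
    have e3 := congr_arg (fun t : smoothCochains 𝒰 A (m + 1) => (t : (Fin (m + 1) → G) → A)) hw
    simp only [CochainComplex.of_d]
    exact e3

end Vanishing

end

end Fermat.Agent.S55.Smooth
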