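import Fermat.Agent.S55.Smooth.Complex

/-!
# S55, D-layer foundation: functoriality of smooth cochains
-/

set_option autoImplicit false

universe u

open CategoryTheory groupCohomology

namespace Fermat.Agent.S55.Smooth

variable {k G H : Type u} [CommRing k] [Group G] [Group H]

/-- A group homomorphism `f : G →* H` is compatible with levels `𝒱` on `G` and `𝒰` on `H` if the
preimage of every level of `H` contains a level of `G`. -/
def LevelsCompat (f : G →* H) (𝒱 : Levels G) (𝒰 : Levels H) : Prop :=
  ∀ U ∈ 𝒰.carrier, ∃ V ∈ 𝒱.carrier, V ≤ U.comap f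

theorem LevelsCompat.id (𝒰 : Levels G) : LevelsCompat (MonoidHom.id G) 𝒰 𝒰 :=
  fun U hU => ⟨U, hU, le_rfl⟩

section Map

variable {𝒱 : Levels G} {𝒰 : Levels H} {A : Rep.{u} k H} {B : Rep.{u} k G}
  (f : G →* H) (φ : Rep.res f A ⟶ B)

theorem IsInfl.map {U : Subgroup H} {V : Subgroup G} (hVU : V ≤ U.comap f) {n : ℕ}
    {x : (Fin n → H) → A} (hx : IsInfl A U x) :
    IsInfl B V (((cochainsMap f φ).f n).hom x) := by
  refine ⟨fun g s hs => ?_, fun g v hv => ?_⟩
  · simp only [cochainsMap_f_hom, LinearMap.coe_comp, Function.comp_apply]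
    simp only [LinearMap.compLeft_apply, LinearMap.funLeft_apply, Function.comp_apply]
    congr 1
    have : (⇑f ∘ (g * s)) = (⇑f ∘ g) * (⇑f ∘ s) := by
      ext i; simp
    rw [this]
    exact hx.1 _ _ fun i => hVU (hs i)
  · simp only [cochainsMap_f_hom, LinearMap.coe_comp, Function.comp_apply]
    simp only [LinearMap.compLeft_apply, LinearMap.funLeft_apply, Function.comp_apply]
    have := Rep.hom_comm_apply φ v (x (⇑f ∘ g))
    change B.ρ v (φ.hom (x (⇑f ∘ g))) = φ.hom (x (⇑f ∘ g))
    rw [← this]
    congr 1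
    exact hx.2 _ _ (hVU hv)

variable (hf : LevelsCompat f 𝒱 𝒰)
include hf

theorem cochainsMap_mem_smoothCochains {n : ℕ} {x : (Fin n → H) → A}
    (hx : x ∈ smoothCochains 𝒰 A n) :
    ((cochainsMap f φ).f n).hom x ∈ smoothCochains 𝒱 B n := by
  obtain ⟨U, hU, hx⟩ := hx
  obtain ⟨V, hV, hVU⟩ := hf U hU
  exact ⟨V, hV, hx.map f φ hVU⟩

/-- The chain map on smooth cochains induced by a compatible group homomorphism and a morphism
of representations. -/
noncomputable def smoothCochainsMap : smoothComplex 𝒰 A ⟶ smoothComplex 𝒱 B :=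
  CochainComplex.ofHom
    (fun n => ModuleCat.ofHom <|
      ((cochainsMap f φ).f n).hom.restrict fun _ hx => cochainsMap_mem_smoothCochains f φ hf hx)
    (fun n => by
      rw [smoothComplex_d, smoothComplex_d]
      ext x : 2
      apply Subtype.ext
      have := congr($((cochainsMap f φ).comm n (n + 1)) x.1)
      simp only [CochainComplex.of_d] at this
      exact this)

theorem smoothCochainsMap_f_apply_coe (n : ℕ) (x : smoothCochains 𝒰 A n) :
    ((((smoothCochainsMap f φ hf).f n).hom x : smoothCochains 𝒱 B n) : (Fin n → G) → B) =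
      ((cochainsMap f φ).f n).hom x.1 := rfl

/-- The map on smooth cohomology. -/
noncomputable def smoothMap (n : ℕ) : smoothCohomology 𝒰 A n ⟶ smoothCohomology 𝒱 B n :=
  HomologicalComplex.homologyMap (smoothCochainsMap f φ hf) n

end Map

end Fermat.Agent.S55.Smooth
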