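import Fermat.Agent.S55.Smooth.Cls
import Fermat.Agent.S55.Bridge.Cochain
import Fermat.Agent.S55.Bridge.Level

/-!
# S55, D-layer foundation: the level families of the Prelude

* `globalLevels S`: normal finite-index subgroups of `G_ℚ` containing `G_F` for some finite `F/ℚ`
  unramified outside `S`;
* `localLevels r` for `r : H →* G_ℚ`: normal finite-index subgroups of `H` containing
  `r⁻¹(G_F)` for some finite `F/ℚ`.

The Prelude's `IsLevelConstantS₁/₂` and `IsLevelConstant₁/₂ r` are exactly constancy modulo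
some level of these families.
-/

set_option autoImplicit false

open CategoryTheory groupCohomology

namespace Fermat.Agent.S55.Smooth

/-- The absolute Galois group of `ℚ`. -/
abbrev GQ : Type := AlgebraicClosure ℚ ≃ₐ[ℚ] AlgebraicClosure ℚ

attribute [local instance] Bridge.isAlgebraic_Qbar Bridge.isGalois_Qbar

theorem finiteIndex_comap {G H : Type*} [Group G] [Group H] (r : H →* G) (U : Subgroup G)
    [U.FiniteIndex] : (U.comap r).FiniteIndex := by
  constructor
  have := Subgroup.relIndex_comap_ne_zero r (J := U) (K := ⊤)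
    (by rw [Subgroup.relIndex_top_right]; exact Subgroup.FiniteIndex.index_ne_zero)
  rwa [Subgroup.comap_top, Subgroup.relIndex_top_right] at this

theorem fixingSubgroup_normal_of_isGalois (F : IntermediateField ℚ (AlgebraicClosure ℚ))
    (hgal : IsGalois ℚ F) : F.fixingSubgroup.Normal := by
  refine (InfiniteGalois.normal_iff_isGalois F).2 ?_
  convert hgal
  exact Subsingleton.elim _ _

theorem fixingSubgroup_finiteIndex (F : IntermediateField ℚ (AlgebraicClosure ℚ))
    (hfin : FiniteDimensional ℚ F) : F.fixingSubgroup.FiniteIndex := by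
  have hopen : IsOpen (F.fixingSubgroup : Set GQ) := IntermediateField.fixingSubgroup_isOpen F
  have : Finite (GQ ⧸ F.fixingSubgroup) := Subgroup.quotient_finite_of_isOpen _ hopen
  exact Subgroup.finiteIndex_of_finite_quotient

/-- Every finite extension of `ℚ` in `ℚ̄` is contained in a finite Galois extension. -/
theorem exists_finite_galois_ge (F : IntermediateField ℚ (AlgebraicClosure ℚ))
    (hfin : FiniteDimensional ℚ F) :
    ∃ L : IntermediateField ℚ (AlgebraicClosure ℚ), FiniteDimensional ℚ L ∧ IsGalois ℚ L ∧ F ≤ L := by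
  have : FiniteDimensional ℚ F := hfin
  exact ⟨IntermediateField.normalClosure ℚ F (AlgebraicClosure ℚ),
    normalClosure.is_finiteDimensional ℚ F (AlgebraicClosure ℚ),
    IsGalois.normalClosure ℚ F (AlgebraicClosure ℚ), IntermediateField.le_normalClosure F⟩

/-- The levels of `G_ℚ` unramified outside `S`. -/
def globalLevels (S : Finset Nat.Primes) : Levels GQ where
  carrier := {U | U.Normal ∧ U.FiniteIndex ∧
    ∃ F : IntermediateField ℚ (AlgebraicClosure ℚ), F.IsUnramifiedOutside S ∧
      F.fixingSubgroup ≤ U}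
  nonempty' := ⟨⊤, inferInstance, inferInstance, ⊥,
    IntermediateField.isUnramifiedOutside_bot S, le_top⟩
  normal' U hU := hU.1
  finiteIndex' U hU := hU.2.1
  directed' := by
    rintro U ⟨hUn, hUf, F, hF, hFU⟩ V ⟨hVn, hVf, F', hF', hFV⟩
    refine ⟨U ⊓ V, ⟨inferInstance, inferInstance, F ⊔ F', hF.sup hF', ?_⟩, inf_le_left,
      inf_le_right⟩
    rw [IntermediateField.fixingSubgroup_sup]
    exact inf_le_inf hFU hFV

/-- The levels of `H` induced by `r : H →* G_ℚ` (all finite extensions of `ℚ`). -/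
def localLevels {H : Type} [Group H] (r : H →* GQ) : Levels H where
  carrier := {V | V.Normal ∧ V.FiniteIndex ∧
    ∃ F : IntermediateField ℚ (AlgebraicClosure ℚ), FiniteDimensional ℚ F ∧
      F.fixingSubgroup.comap r ≤ V}
  nonempty' := ⟨⊤, inferInstance, inferInstance, ⊥, inferInstance, le_top⟩
  normal' V hV := hV.1
  finiteIndex' V hV := hV.2.1
  directed' := by
    rintro U ⟨hUn, hUf, F, hF, hFU⟩ V ⟨hVn, hVf, F', hF', hFV⟩
    refine ⟨U ⊓ V, ⟨inferInstance, inferInstance, F ⊔ F',
      IntermediateField.finiteDimensional_sup F F', ?_⟩, inf_le_left, inf_le_right⟩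
    rw [IntermediateField.fixingSubgroup_sup, Subgroup.comap_inf]
    exact inf_le_inf hFU hFV

theorem mem_globalLevels_of_galois (S : Finset Nat.Primes)
    (F : IntermediateField ℚ (AlgebraicClosure ℚ)) (hF : F.IsUnramifiedOutside S)
    (hgal : IsGalois ℚ F) : F.fixingSubgroup ∈ (globalLevels S).carrier :=
  ⟨fixingSubgroup_normal_of_isGalois F hgal,
    fixingSubgroup_finiteIndex F hF.1, F, hF, le_rfl⟩

theorem mem_localLevels_of_galois {H : Type} [Group H] (r : H →* GQ)
    (F : IntermediateField ℚ (AlgebraicClosure ℚ)) (hfin : FiniteDimensional ℚ F)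
    (hgal : IsGalois ℚ F) :
    F.fixingSubgroup.comap r ∈ (localLevels r).carrier := by
  have := fixingSubgroup_normal_of_isGalois F hgal
  have := fixingSubgroup_finiteIndex F hfin
  exact ⟨inferInstance, finiteIndex_comap r _, F, hfin, le_rfl⟩

/-- Restriction from global to local levels is compatible. -/
theorem levelsCompat_local_global (S : Finset Nat.Primes) {H : Type} [Group H] (r : H →* GQ) :
    LevelsCompat r (localLevels r) (globalLevels S) := by
  rintro U ⟨hUn, hUf, F, hF, hFU⟩
  have := hUn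
  have := hUf
  exact ⟨U.comap r, ⟨inferInstance, finiteIndex_comap r _, F, hF.1, Subgroup.comap_mono hFU⟩,
    le_rfl⟩

section Const

variable (S : Finset Nat.Primes) {X : Type*}

theorem isLevelConstantS₁_iff (f : GQ → X) :
    IsLevelConstantS₁ S f ↔
      ∃ U ∈ (globalLevels S).carrier, ∀ g s, s ∈ U → f (g * s) = f g := by
  constructor
  · intro h
    obtain ⟨F, hF, hgal, -, hc⟩ := (Bridge.isLevelConstantS₁_iff_galois S f ⊥
      (IntermediateField.isUnramifiedOutside_bot S)).1 h
    exact ⟨F.fixingSubgroup, mem_globalLevels_of_galois S F hF hgal, hc⟩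
  · rintro ⟨U, ⟨-, -, F, hF, hFU⟩, hc⟩
    exact ⟨F, hF, fun g s hs => hc g s (hFU hs)⟩

theorem isLevelConstantS₂_iff (f : GQ × GQ → X) :
    IsLevelConstantS₂ S f ↔
      ∃ U ∈ (globalLevels S).carrier, ∀ g g' s s', s ∈ U → s' ∈ U →
        f (g * s, g' * s') = f (g, g') := by
  constructor
  · intro h
    obtain ⟨F, hF, hgal, -, hc⟩ := (Bridge.isLevelConstantS₂_iff_galois S f ⊥
      (IntermediateField.isUnramifiedOutside_bot S)).1 h
    exact ⟨F.fixingSubgroup, mem_globalLevels_of_galois S F hF hgal, hc⟩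
  · rintro ⟨U, ⟨-, -, F, hF, hFU⟩, hc⟩
    exact ⟨F, hF, fun g g' s s' hs hs' => hc g g' s s' (hFU hs) (hFU hs')⟩

variable {H : Type} [Group H] (r : H →* GQ)

theorem isLevelConstant₁_iff (f : H → X) :
    IsLevelConstant₁ r f ↔
      ∃ V ∈ (localLevels r).carrier, ∀ g s, s ∈ V → f (g * s) = f g := by
  constructor
  · rintro ⟨F, hF, hc⟩
    obtain ⟨L, hLfin, hLgal, hle⟩ := exists_finite_galois_ge F hF
    exact ⟨_, mem_localLevels_of_galois r L hLfin hLgal, fun g s hs =>
      hc g s (IntermediateField.fixingSubgroup_antitone hle hs)⟩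
  · rintro ⟨V, ⟨-, -, F, hF, hFV⟩, hc⟩
    exact ⟨F, hF, fun g s hs => hc g s (hFV hs)⟩

theorem isLevelConstant₂_iff (f : H × H → X) :
    IsLevelConstant₂ r f ↔
      ∃ V ∈ (localLevels r).carrier, ∀ g g' s s', s ∈ V → s' ∈ V →
        f (g * s, g' * s') = f (g, g') := by
  constructor
  · rintro ⟨F, hF, hc⟩
    obtain ⟨L, hLfin, hLgal, hle⟩ := exists_finite_galois_ge F hF
    exact ⟨_, mem_localLevels_of_galois r L hLfin hLgal, fun g g' s s' hs hs' =>
      hc g g' s s' (IntermediateField.fixingSubgroup_antitone hle hs)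
        (IntermediateField.fixingSubgroup_antitone hle hs')⟩
  · rintro ⟨V, ⟨-, -, F, hF, hFV⟩, hc⟩
    exact ⟨F, hF, fun g g' s s' hs hs' => hc g g' s s' (hFV hs) (hFV hs')⟩

end Const

end Fermat.Agent.S55.Smooth
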