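import Fermat.Agent.S55.Smooth.Functoriality

/-!
# S55, D-layer foundation: the long exact sequence of smooth cohomology

A short exact sequence `0 ⟶ X₁ ⟶ X₂ ⟶ X₃ ⟶ 0` of representations with `X₂` smooth induces a
short exact sequence of complexes of smooth cochains, hence a long exact sequence.
-/

set_option autoImplicit false

universe u

open CategoryTheory groupCohomology

namespace Fermat.Agent.S55.Smooth

variable {k G : Type u} [CommRing k] [Group G]

section

variable (𝒰 : Levels G)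

/-- The chain map on smooth cochains induced by a morphism of representations. -/
noncomputable abbrev smoothCochainsMapId {A B : Rep.{u} k G} (φ : A ⟶ B) :
    smoothComplex 𝒰 A ⟶ smoothComplex 𝒰 B :=
  smoothCochainsMap (MonoidHom.id G) φ (LevelsCompat.id 𝒰)

theorem smoothCochainsMapId_f_apply {A B : Rep.{u} k G} (φ : A ⟶ B) (n : ℕ)
    (x : smoothCochains 𝒰 A n) (g : Fin n → G) :
    ((((smoothCochainsMapId 𝒰 φ).f n).hom x : smoothCochains 𝒰 B n) : (Fin n → G) → B) g =
      φ.hom (x.1 g) := rfl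

theorem smoothCochainsMapId_comp {A B C : Rep.{u} k G} (φ : A ⟶ B) (ψ : B ⟶ C) :
    smoothCochainsMapId 𝒰 (φ ≫ ψ) = smoothCochainsMapId 𝒰 φ ≫ smoothCochainsMapId 𝒰 ψ := by
  rfl

theorem smoothCochainsMapId_id (A : Rep.{u} k G) :
    smoothCochainsMapId 𝒰 (𝟙 A) = 𝟙 (smoothComplex 𝒰 A) := by
  rfl

theorem smoothCochainsMapId_zero (A B : Rep.{u} k G) :
    smoothCochainsMapId 𝒰 (0 : A ⟶ B) = 0 := by
  rfl

/-- The functor of smooth cochains. -/
noncomputable def smoothCochainsFunctor : Rep.{u} k G ⥤ CochainComplex (ModuleCat k) ℕ where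
  obj A := smoothComplex 𝒰 A
  map φ := smoothCochainsMapId 𝒰 φ
  map_id A := smoothCochainsMapId_id 𝒰 A
  map_comp φ ψ := smoothCochainsMapId_comp 𝒰 φ ψ

instance : (smoothCochainsFunctor (k := k) 𝒰).PreservesZeroMorphisms where
  map_zero A B := smoothCochainsMapId_zero 𝒰 A B

/-- The functor of smooth cohomology in degree `n`. -/
noncomputable def smoothFunctor (n : ℕ) : Rep.{u} k G ⥤ ModuleCat k :=
  smoothCochainsFunctor 𝒰 ⋙ HomologicalComplex.homologyFunctor _ _ n

instance (n : ℕ) : (smoothFunctor (k := k) 𝒰 n).PreservesZeroMorphisms := by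
  unfold smoothFunctor
  infer_instance

theorem smoothFunctor_obj (n : ℕ) (A : Rep.{u} k G) :
    (smoothFunctor 𝒰 n).obj A = smoothCohomology 𝒰 A n := rfl

end

section LES

open ShortComplex

variable (𝒰 : Levels G) {X : ShortComplex (Rep.{u} k G)} (hX : ShortExact X)
  (hsm : IsSmoothRep 𝒰 X.X₂)

include hX hsm

lemma map_smoothCochainsFunctor_shortExact :
    ShortExact (X.map (smoothCochainsFunctor 𝒰)) := by
  have hf : Function.Injective X.f.hom := (Rep.mono_iff_injective X.f).1 hX.mono_f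
  have hg : Function.Surjective X.g.hom := (Rep.epi_iff_surjective X.g).1 hX.epi_g
  have hex : ∀ b : X.X₂, X.g.hom b = 0 → ∃ a : X.X₁, X.f.hom a = b := by
    intro b hb
    have : LinearMap.range X.f.hom.toLinearMap = LinearMap.ker X.g.hom.toLinearMap :=
      (hX.exact.map (forget₂ (Rep k G) (ModuleCat k))).moduleCat_range_eq_ker
    have hb' : b ∈ LinearMap.ker X.g.hom.toLinearMap := hb
    rw [← this] at hb'
    exact hb'
  refine HomologicalComplex.shortExact_of_degreewise_shortExact _ fun n => ?_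
  refine { exact := ?_, mono_f := ?_, epi_g := ?_ }
  · rw [ShortComplex.moduleCat_exact_iff]
    intro y hy
    obtain ⟨U, hU, hyU⟩ := y.2
    have hy' : ∀ g, X.g.hom (y.1 g) = 0 := fun g => congr_fun (congr_arg Subtype.val hy) g
    choose a ha using fun g => hex (y.1 g) (hy' g)
    refine ⟨⟨a, U, hU, fun g s hs => hf ?_, fun g u hu => hf ?_⟩, Subtype.ext (funext ha)⟩
    · rw [ha, ha, hyU.1 g s hs]
    · rw [Rep.hom_comm_apply, ha, hyU.2 g u hu]
  · rw [ModuleCat.mono_iff_injective]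
    intro x y hxy
    apply Subtype.ext
    funext g
    exact hf (congr_fun (congr_arg Subtype.val hxy) g)
  · rw [ModuleCat.epi_iff_surjective]
    intro z
    obtain ⟨U, hU, hzU⟩ := z.2
    have := 𝒰.finiteIndex' U hU
    have hfin : (Set.range fun g => Function.surjInv hg (z.1 g)).Finite := by
      refine finite_range_of_const (U := U) _ fun g s hs => ?_
      show Function.surjInv hg (z.1 (g * s)) = Function.surjInv hg (z.1 g)
      rw [hzU.1 g s hs]
    obtain ⟨W, hW, hWU, hWfix⟩ := hsm.exists_level_of_finite U hU hfin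
    refine ⟨⟨fun g => Function.surjInv hg (z.1 g), W, hW, fun g s hs => ?_, fun g u hu => ?_⟩,
      Subtype.ext (funext fun g => Function.surjInv_eq hg (z.1 g))⟩
    · show Function.surjInv hg (z.1 (g * s)) = Function.surjInv hg (z.1 g)
      rw [hzU.1 g s fun i => hWU (hs i)]
    · exact hWfix _ ⟨g, rfl⟩ u hu

/-- The connecting homomorphism of smooth cohomology. -/
noncomputable def smoothδ (i j : ℕ) (hij : i + 1 = j) :
    smoothCohomology 𝒰 X.X₃ i ⟶ smoothCohomology 𝒰 X.X₁ j :=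
  (map_smoothCochainsFunctor_shortExact 𝒰 hX hsm).δ i j hij

/-- Exactness of `Hⁱ(X₃) ⟶ Hʲ(X₁) ⟶ Hʲ(X₂)`. -/
lemma smooth_exact₁ {i j : ℕ} (hij : i + 1 = j) :
    (ShortComplex.mk (smoothδ 𝒰 hX hsm i j hij) ((smoothFunctor 𝒰 j).map X.f)
      ((map_smoothCochainsFunctor_shortExact 𝒰 hX hsm).δ_comp i j hij)).Exact :=
  (map_smoothCochainsFunctor_shortExact 𝒰 hX hsm).homology_exact₁ i j hij

/-- Exactness of `Hⁱ(X₁) ⟶ Hⁱ(X₂) ⟶ Hⁱ(X₃)`. -/
lemma smooth_exact₂ (i : ℕ) : (X.map (smoothFunctor 𝒰 i)).Exact :=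
  (map_smoothCochainsFunctor_shortExact 𝒰 hX hsm).homology_exact₂ i

/-- Exactness of `Hⁱ(X₂) ⟶ Hⁱ(X₃) ⟶ Hʲ(X₁)`. -/
lemma smooth_exact₃ {i j : ℕ} (hij : i + 1 = j) :
    (ShortComplex.mk ((smoothFunctor 𝒰 i).map X.g) (smoothδ 𝒰 hX hsm i j hij)
      ((map_smoothCochainsFunctor_shortExact 𝒰 hX hsm).comp_δ i j hij)).Exact :=
  (map_smoothCochainsFunctor_shortExact 𝒰 hX hsm).homology_exact₃ i j hij

end LES

end Fermat.Agent.S55.Smooth
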