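import Fermat.Agent.S55.Smooth.CompareH1
import Fermat.Agent.S55.Bridge.Reduce

/-!
# S55, D-layer foundation: reduction of S55 to smooth cohomology

`S55` follows from `SmoothShaDualitySpec`: for the smooth cohomology of `G_ℚ` with levels
unramified outside `S` and of the local Galois groups at `q ∈ S`, the groups `Ш¹_sm(M^∨(1))` and
`Ш²_sm(M)` are finite-dimensional of the same dimension.
-/

set_option autoImplicit false

open CategoryTheory groupCohomology ExtCitation Module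

namespace Fermat.Agent.S55.Smooth

/-- The hypotheses of S55 give a uniform `S`-level for `M` and for `M^∨(1)`. -/
theorem hasLevel_of_S55_hyps {p : ℕ} [Fact p.Prime] (S : Finset Nat.Primes)
    (hpS : pPrime p ∈ S) (M : Rep.{0, 0, 0} (ZMod p) GQ) [FiniteDimensional (ZMod p) M]
    (hsm : ∀ m : M, ∃ F : IntermediateField ℚ (AlgebraicClosure ℚ), FiniteDimensional ℚ F ∧
      ∀ s ∈ F.fixingSubgroup, M.ρ s m = m)
    (hMur : ∀ q : Nat.Primes, q ∉ S → ∀ A : ValuationSubring (AlgebraicClosure ℚ),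
      A.LiesOverPrime (q : ℕ) → ∀ g ∈ A.inertiaSubgroupIn ℚ, M.ρ g = 1) :
    HasLevel S M ∧ HasLevel S (M.dualTwist (cycloChar p)) := by
  obtain ⟨L, hL, hgal, h1, -, h3⟩ := Bridge.exists_common_galois_level M S hpS hsm hMur
  exact ⟨⟨_, mem_globalLevels_of_galois S L hL hgal, h1⟩,
    ⟨_, mem_globalLevels_of_galois S L hL hgal, h3⟩⟩

/-- The smooth form of the `Ш¹`/`Ш²` duality (as a dimension count). -/
def SmoothShaDualitySpec : Prop :=
  ∀ (p : ℕ) [Fact p.Prime], p ≠ 2 → ∀ (S : Finset Nat.Primes), pPrime p ∈ S →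
    ∀ (M : Rep.{0, 0, 0} (ZMod p) GQ) [FiniteDimensional (ZMod p) M],
      HasLevel S M → HasLevel S (M.dualTwist (cycloChar p)) →
      FiniteDimensional (ZMod p) (smoothSha₁ S (M.dualTwist (cycloChar p))) ∧
      FiniteDimensional (ZMod p) (smoothSha₂ S M) ∧
      finrank (ZMod p) (smoothSha₁ S (M.dualTwist (cycloChar p))) =
        finrank (ZMod p) (smoothSha₂ S M)

/-- S55 from the smooth duality statement. -/
theorem S55_of_smoothShaDuality (h : SmoothShaDualitySpec)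
    {p : ℕ} [Fact p.Prime] (hp2 : p ≠ 2) (S : Finset Nat.Primes) (hpS : pPrime p ∈ S)
    (M : Rep (ZMod p) (AlgebraicClosure ℚ ≃ₐ[ℚ] AlgebraicClosure ℚ))
    [FiniteDimensional (ZMod p) M]
    (hsm : ∀ m : M, ∃ F : IntermediateField ℚ (AlgebraicClosure ℚ), FiniteDimensional ℚ F ∧
      ∀ s ∈ F.fixingSubgroup, M.ρ s m = m)
    (hMur : ∀ q : Nat.Primes, q ∉ S → ∀ A : ValuationSubring (AlgebraicClosure ℚ),
      A.LiesOverPrime (q : ℕ) → ∀ g ∈ A.inertiaSubgroupIn ℚ, M.ρ g = 1) :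
    ∃ B : sha₁ S (M.dualTwist (cycloChar p)) →ₗ[ZMod p] sha₂ S M →ₗ[ZMod p] ZMod p,
      (∀ y, (∀ x, B y x = 0) → y = 0) ∧ (∀ x, (∀ y, B y x = 0) → x = 0) := by
  obtain ⟨hM, hM'⟩ := hasLevel_of_S55_hyps S hpS M hsm hMur
  obtain ⟨f1, f2, hfr⟩ := h p hp2 S hpS M hM hM'
  have h2 : (2 : ZMod p) ≠ 0 := Bridge.two_ne_zero_zmod hp2
  exact Bridge.pairing_of_equivs S M (sha₁Equiv h2 hM') (sha₂Equiv h2 hM) hfr

end Fermat.Agent.S55.Smooth
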